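import Fermat.Agent.XHLite.Analytic.Series
import Fermat.Agent.J0Torsion.SerMem
import Fermat.Agent.J0Torsion.CoeffDescent
import Mathlib.NumberTheory.ArithmeticFunction.Misc

/-!
`(E_{2m}(z) - E_{2m}(2 z)) / f₄ ^ m`, normalised, as a modular function of level `N` for `4 ∣ N`.
-/

set_option autoImplicit false

noncomputable section

open UpperHalfPlane CongruenceSubgroup ModularCurve
open scoped MatrixGroups Manifold ArithmeticFunction.sigma

namespace Fermat.Agent.XHLite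

open X0Analytic (modFun perMero qSer ser scaleGL qp)

/-- Coefficients of the trivial numerator: `σ_{k-1}(n) - σ_{k-1}(n/2)`. -/
def numOneCoeff (R : Type*) [CommRing R] (k n : ℕ) : R :=
  (σ (k - 1) n : R) - if 2 ∣ n then (σ (k - 1) (n / 2) : R) else 0

/-- Its series over `f₄ ^ m`. -/
def nOneSer (R : Type*) [CommRing R] (m : ℕ) : LaurentSeries R :=
  HahnSeries.ofPowerSeries ℤ R (PowerSeries.mk (numOneCoeff R (2 * m))) *
    coeffMap (Int.castRingHom R) ((f4Unit⁻¹ ^ m : (LaurentSeries ℤ)ˣ) : LaurentSeries ℤ)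

theorem map_numOneCoeff {R S : Type*} [CommRing R] [CommRing S] (f : R →+* S) (k n : ℕ) :
    f (numOneCoeff R k n) = numOneCoeff S k n := by
  simp [numOneCoeff, apply_ite f]

theorem coeffMap_nOneSer {R S : Type*} [CommRing R] [CommRing S] (f : R →+* S) (m : ℕ) :
    coeffMap f (nOneSer R m) = nOneSer S m := by
  rw [nOneSer, nOneSer, map_mul, coeffMap_ofPowerSeries, map_mk, coeffMap_coeffMap,
    RingHom.ext_int (f.comp (Int.castRingHom R)) (Int.castRingHom S)]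
  simp only [map_numOneCoeff]

/-- Coefficients of the trivial Eisenstein series. -/
def coeffOne (M : ℕ) : (Fin 2 → ℤ) → ℂ := prodCoeff (1 * M) (fun _ => 1) (fun _ => 1)

theorem coeffBound_coeffOne (M : ℕ) : CoeffBound (coeffOne M) :=
  coeffBound_prodCoeff _ (fun _ => by simp) (fun _ => by simp)

theorem coeffOne_eigen {M : ℕ} {γ : SL(2, ℤ)} (h : (M : ℤ) ∣ γ 1 0) (v : Fin 2 → ℤ) :
    coeffOne M v = 1 * coeffOne M (Matrix.vecMul v (γ : Matrix (Fin 2) (Fin 2) ℤ)) := by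
  simp only [coeffOne, prodCoeff, vecMul_zero_apply, one_mul, dvd_row_iff h]

/-- The normalised difference of the Eisenstein series at `z` and `2 z`. -/
def numOne (k : ℕ) (z : ℍ) : ℂ :=
  (2 * lipConst k)⁻¹ * (eisC k (coeffOne 1) z - eisC k (coeffOne 2) z)

theorem numOne_mdiff {k : ℕ} (hk : 3 ≤ k) : MDiff (numOne k) :=
  mdifferentiable_const.mul
    ((eisC_mdiff hk (coeffBound_coeffOne 1)).sub (eisC_mdiff hk (coeffBound_coeffOne 2)))

theorem sigmaTwist_one (k n : ℕ) :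
    sigmaTwist k (fun _ => 1) (fourier 1 fun _ => 1) n = (σ (k - 1) n : ℂ) := by
  rw [sigmaTwist, ArithmeticFunction.sigma_apply, Nat.cast_sum]
  rw [Nat.sum_divisorsAntidiagonal' (f := fun a b =>
    (fun _ : ℤ => (1 : ℂ)) a * fourier 1 (fun _ => 1) b * (b : ℂ) ^ (k - 1))]
  refine Finset.sum_congr rfl fun x _ => ?_
  simp [fourier]

theorem hasSum_numOne {k : ℕ} (hk : 3 ≤ k) (hk2 : Even k) (z : ℍ) :
    HasSum (fun n => numOneCoeff ℂ k n • qp 1 z ^ n) (numOne k z) := by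
  have hK : 2 * lipConst k ≠ 0 := mul_ne_zero two_ne_zero (lipConst_ne_zero k)
  have h : ∀ M : ℕ, [NeZero M] →
      HasSum (fun n => (σ (k - 1) n : ℂ) * (qp 1 z ^ M) ^ n)
        ((2 * lipConst k)⁻¹ * (eisC k (coeffOne M) z - ∑' v : ℤ, ((v : ℂ) ^ k)⁻¹)) := fun M _ => by
    have h := hasSum_eisC_prodCoeff hk hk2 (P := 1) M (α := fun _ => 1) (β := fun _ => 1)
      (fun _ => by simp) (fun _ => rfl) (fun _ => by simp) (fun _ => rfl) (fun _ => rfl) z
    simp only [sigmaTwist_one, one_mul] at h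
    rw [coeffOne, one_mul]
    refine (h.mul_left (2 * lipConst k)⁻¹).congr_fun fun n => ?_
    simp only [Nat.cast_one, one_zpow, one_mul]
    field_simp [lipConst_ne_zero k]
  have h1 := h 1
  rw [pow_one] at h1
  have h3 := h1.sub (hasSum_halve (h 2))
  rw [← mul_sub, sub_sub_sub_cancel_right] at h3
  exact h3.congr_fun fun n => by rw [numOneCoeff, smul_eq_mul, sub_mul]

theorem numOne_smul {k : ℕ} {γ : SL(2, ℤ)} (h : (2 : ℤ) ∣ γ 1 0) (z : ℍ) :
    numOne k (γ • z) = UpperHalfPlane.denom (γ : GL (Fin 2) ℝ) z ^ (k : ℤ) * numOne k z := by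
  rw [numOne, numOne, eisC_smul_of_eigen k γ (coeffOne_eigen (M := 1) (by simp)),
    eisC_smul_of_eigen k γ (coeffOne_eigen (M := 2) (by exact_mod_cast h))]
  ring

theorem isBounded_numOne_smul {m : ℕ} (hm : 2 ≤ m) (g : SL(2, ℤ)) :
    IsBoundedAtImInfty fun τ =>
      (UpperHalfPlane.denom (g : GL (Fin 2) ℝ) τ ^ ((2 * m : ℕ) : ℤ))⁻¹ *
        numOne (2 * m) (g • τ) := by
  have h1 := isBounded_eisC_smul (k := 2 * m) (by omega) (coeffBound_coeffOne 1) g
  have h2 := isBounded_eisC_smul (k := 2 * m) (by omega) (coeffBound_coeffOne 2) g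
  refine (Filter.BoundedAtFilter.mul (Filter.const_boundedAtFilter UpperHalfPlane.atImInfty
    (2 * lipConst (2 * m))⁻¹) ((h1.sub h2 : IsBoundedAtImInfty _))).congr_left fun τ => ?_
  simp only [numOne, Pi.mul_apply, Function.const_apply]
  ring

/-- `numOne / f₄ ^ m`. -/
def nOne (m : ℕ) (z : ℍ) : ℂ := numOne (2 * m) z * (f4 z)⁻¹ ^ m

theorem nOne_mem_modFun {N : ℕ} [NeZero N] {m : ℕ} (hm : 2 ≤ m) (hN : 4 ∣ N) :
    nOne m ∈ modFun N := by
  have hinv : ∀ γ ∈ Gamma0 N, ∀ τ : ℍ, nOne m (γ • τ) = nOne m τ := fun γ hγ τ => by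
    have h4 : (4 : ℤ) ∣ γ 1 0 := (show ((4 : ℕ) : ℤ) ∣ _ from
      (Int.natCast_dvd_natCast.mpr hN).trans ((HeckeJ0.mem_Gamma0_iff_dvd _).mp hγ))
    rw [nOne, nOne, numOne_smul ((show (2 : ℤ) ∣ 4 by norm_num).trans h4), f4Inv_of_mem h4]
    simp only [mul_inv, mul_pow, inv_pow, zpow_natCast, zpow_ofNat, ← pow_mul]
    have := pow_ne_zero (2 * m) (UpperHalfPlane.denom_ne_zero (γ : GL (Fin 2) ℝ) τ)
    field_simp
  have hmd : MDiff (nOne m) := (numOne_mdiff (by omega)).mul ((X0Analytic.mem_holFun).mp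
    (pow_mem (X0Analytic.mem_holFun.mpr inv_f4_mdiff) m))
  refine J0Torsion.mem_modFun_of_twFun_one ⟨hmd, fun γ τ => ?_, fun g => ?_⟩
  · rw [hinv γ γ.2, MonoidHom.one_apply, one_mul]
  · obtain ⟨M, hM⟩ := exists_bounded_div_f4 1 N (by simpa using hN) g (isBounded_numOne_smul hm g)
    simp only [X0Analytic.scaleGL_one_smul] at hM
    exact ⟨M, hM⟩

theorem ser_nOne {N : ℕ} [NeZero N] {m : ℕ} (hm : 2 ≤ m) (hN : 4 ∣ N) :
    ser N ⟨nOne m, nOne_mem_modFun hm hN⟩ = nOneSer ℂ m := by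
  obtain ⟨hn, hns⟩ := qSer_of_hasSum (numOne_mdiff (k := 2 * m) (by omega))
    (hasSum_numOne (show 3 ≤ 2 * m by omega) (even_two_mul m))
  obtain ⟨hf, hfs⟩ := qSer_inv_f4
  rw [nOneSer, Units.val_pow_eq_pow_val, map_pow, ← hns, ← hfs, ← map_pow, ← map_mul,
    X0Analytic.ser_apply]
  rfl

/-- Over any subfield of `ℂ` the series lies in the function field of level `N`. -/
theorem nOneSer_mem {L : Type} [Field L] [Algebra ℚ L] (φ : L →+* ℂ) {N : ℕ} [NeZero N] {m : ℕ}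
    (hm : 2 ≤ m) (hN : 4 ∣ N) : nOneSer L m ∈ X0Analytic.FLevel L N :=
  J0Torsion.mem_FLevel_of_coeffMap_mem φ (by
    rw [coeffMap_nOneSer, ← ser_nOne (N := N) hm hN]
    exact J0Torsion.ser_mem_FLevel _)

end Fermat.Agent.XHLite
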