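import Fermat.Agent.XHLite.Analytic.Series
import Fermat.Agent.XHLite.Twist.Cover
import Fermat.Agent.J0Torsion.Main
import Fermat.Agent.J0Torsion.SerMem
import Fermat.Agent.J0Torsion.CoeffDescent
import Fermat.Agent.BigImage.RootsOfUnity

/-!
`y ^ d` in the function field of `X₀(N q)` over `ℚ̄`: existence of the character, divisibility of
all orders by `d`, and the cover used for twisting.
-/

set_option autoImplicit false

noncomputable section

open UpperHalfPlane CongruenceSubgroup ModularCurve AlgebraicCurve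
open scoped MatrixGroups

namespace Fermat.Agent.XHLite

open X0Analytic (modFun perMero qSer ser FLevel)
open J0Torsion (jEmb twFun powMod)

local notation "Qbar" => AlgebraicClosure ℚ

/-- A series with coefficients in `L` whose image is the series of a modular function. -/
theorem mem_FLevel_of_ser {L : Type} [Field L] [Algebra ℚ L] {M : ℕ} [NeZero M] (φ : L →+* ℂ)
    {x : LaurentSeries L} (G : ↥(modFun M)) (h : coeffMap φ x = ser M G) : x ∈ FLevel L M :=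
  J0Torsion.mem_FLevel_of_coeffMap_mem φ (h ▸ J0Torsion.ser_mem_FLevel G)

variable {q : ℕ} [Fact q.Prime]

theorem exists_chi {d : ℕ} (hq : q ≠ 2) (hd : d ∣ (q - 1) / 2) (hd0 : d ≠ 0) :
    ∃ χ : MulChar (ZMod q) Qbar, orderOf χ = d := by
  have : NeZero (d : Qbar) := ⟨Nat.cast_ne_zero.mpr hd0⟩
  have : NeZero d := ⟨hd0⟩
  obtain ⟨ζ, hζ⟩ := HasEnoughRootsOfUnity.exists_primitiveRoot Qbar d
  refine MulChar.exists_mulChar_orderOf (ZMod q) ?_ hζ
  rw [ZMod.card]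
  obtain ⟨r, hr⟩ := (Fact.out : q.Prime).odd_of_ne_two hq
  rw [show q - 1 = 2 * ((q - 1) / 2) by omega]
  exact hd.mul_left 2

theorem neg_one_of_dvd {R : Type*} [CommRing R] {χ : MulChar (ZMod q) R} (hq : q ≠ 2)
    (hd : orderOf χ ∣ (q - 1) / 2) : χ (-1) = 1 := by
  have hodd : Odd q := (Fact.out : q.Prime).odd_of_ne_two hq
  obtain ⟨g, hg⟩ := IsCyclic.exists_generator (α := (ZMod q)ˣ)
  obtain ⟨j, hj⟩ := Submonoid.mem_powers_iff _ _ |>.mp (mem_powers_iff_mem_zpowers.mpr (hg (-1)))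
  have hord : orderOf g = q - 1 := by
    rw [orderOf_eq_card_of_forall_mem_zpowers hg, Nat.card_eq_fintype_card, ZMod.card_units]
  have h2 : (q - 1) ∣ 2 * j := by
    rw [← hord, orderOf_dvd_iff_pow_eq_one, mul_comm, pow_mul, hj, neg_one_sq]
  have hdj : orderOf χ ∣ j := by
    refine hd.trans ?_
    obtain ⟨r, hr⟩ := hodd
    rw [show (q - 1) / 2 = r by omega]
    rw [show q - 1 = 2 * r by omega] at h2
    exact Nat.dvd_of_mul_dvd_mul_left two_pos h2
  obtain ⟨e, he⟩ := hdj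
  have h := congrArg (fun u : (ZMod q)ˣ => χ (u : ZMod q)) hj
  simp only [Units.val_pow_eq_pow_val, Units.val_neg, Units.val_one, map_pow] at h
  rw [← h, he, pow_mul]
  rw [← MulChar.pow_apply_coe, pow_orderOf_eq_one, MulChar.one_apply_coe, one_pow]

/-- The complex character. -/
abbrev chiC (χ : MulChar (ZMod q) Qbar) : MulChar (ZMod q) ℂ := χ.ringHomComp jEmb

omit [Fact q.Prime] in
theorem chiC_ne_one {χ : MulChar (ZMod q) Qbar} (hχ : χ ≠ 1) : chiC χ ≠ 1 :=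
  (MulChar.ringHomComp_ne_one_iff jEmb.injective).mpr hχ

theorem chiC_neg_one {χ : MulChar (ZMod q) Qbar} (hev : χ (-1) = 1) : chiC χ (-1) = 1 := by
  rw [MulChar.ringHomComp_apply, hev, map_one]

theorem unitHom_pow {χ : MulChar (ZMod q) ℂ} {d : ℕ} (h : χ ^ d = 1) : unitHom χ ^ d = 1 := by
  refine MonoidHom.ext fun a => ?_
  rw [MonoidHom.pow_apply, MonoidHom.one_apply]
  show χ (a : ZMod q) ^ d = 1
  rw [← MulChar.pow_apply_coe, h, MulChar.one_apply_coe]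

variable {N : ℕ} [NeZero N]

omit [NeZero N] in
theorem multHom_pow {χ : MulChar (ZMod q) ℂ} {d : ℕ} (h : χ ^ d = 1) :
    ((unitHom χ).comp (dMod N q)) ^ d = 1 := by
  refine MonoidHom.ext fun γ => ?_
  rw [MonoidHom.pow_apply, MonoidHom.comp_apply, ← MonoidHom.pow_apply, unitHom_pow h]
  rfl

omit [NeZero N] in
/-- For `36 ∣ N` an elliptic or parabolic element of `Γ₀(N q)` has lower right entry `±1` mod `q`. -/
theorem unitHom_of_trace {χ : MulChar (ZMod q) ℂ} (hev : χ (-1) = 1) (hN : 36 ∣ N)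
    (γ : Gamma0 (N * q))
    (htr : ((γ : SL(2, ℤ)) : Matrix (Fin 2) (Fin 2) ℤ).trace ^ 2 ≤ 4) :
    (unitHom χ).comp (dMod N q) γ = 1 := by
  rw [unitHom_dMod]
  obtain ⟨g, hg⟩ := γ
  show χ ((g 1 1 : ℤ) : ZMod q) = 1
  have hdet := det_eq g
  have hc := (HeckeJ0.mem_Gamma0_iff_dvd _).mp hg
  rw [Matrix.trace_fin_two] at htr
  have hmod : ∀ n : ℕ, n ∣ N * q → ((g 0 0 : ℤ) : ZMod n) * ((g 1 1 : ℤ) : ZMod n) = 1 := by
    intro n hn
    have h := congrArg (Int.cast (R := ZMod n)) hdet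
    rwa [Int.cast_sub, Int.cast_mul, Int.cast_mul, (ZMod.intCast_zmod_eq_zero_iff_dvd _ n).mpr
      ((Int.natCast_dvd_natCast.mpr hn).trans hc), mul_zero, sub_zero, Int.cast_one] at h
  have h4 := hmod 4 (((show 4 ∣ 36 by norm_num).trans hN).mul_right q)
  have h9 := hmod 9 (((show 9 ∣ 36 by norm_num).trans hN).mul_right q)
  have hq := hmod q (dvd_mul_left q N)
  obtain ⟨t, ht⟩ : ∃ t, t = g 0 0 + g 1 1 := ⟨_, rfl⟩
  have ht' : ∀ n : ℕ, ((g 0 0 : ℤ) : ZMod n) + ((g 1 1 : ℤ) : ZMod n) = (t : ZMod n) := fun n => by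
    rw [ht, Int.cast_add]
  rw [show (g : Matrix (Fin 2) (Fin 2) ℤ) 0 0 + (g : Matrix (Fin 2) (Fin 2) ℤ) 1 1 = t from ht.symm]
    at htr
  have htb : -2 ≤ t ∧ t ≤ 2 := ⟨by nlinarith, by nlinarith⟩
  have hne4 : ∀ a d : ZMod 4, a * d = 1 → a + d ≠ 0 := by decide
  have hne9 : ∀ a d : ZMod 9, a * d = 1 → a + d ≠ 1 ∧ a + d ≠ -1 := by decide
  have hcase : t = 2 ∨ t = -2 := by
    have e4 := hne4 _ _ h4
    have e9 := hne9 _ _ h9
    rw [ht'] at e4 e9
    rcases (show t = -2 ∨ t = -1 ∨ t = 0 ∨ t = 1 ∨ t = 2 by omega) with h | h | h | h | h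
    · exact Or.inr h
    · exact absurd (by rw [h]; simp) e9.2
    · exact absurd (by rw [h]; simp) e4
    · exact absurd (by rw [h]; simp) e9.1
    · exact Or.inl h
  have e := ht' q
  have hsq : ∀ {a d : ZMod q} (s : ZMod q), a * d = 1 → s * s = 1 → a + d = 2 * s → d = s := by
    intro a d s h1 h2 h3
    have : (d - s) * (d - s) = 0 := by linear_combination d * h3 - h1 + h2
    exact sub_eq_zero.mp (mul_self_eq_zero.mp this)
  rcases hcase with h | h
  · rw [hsq 1 hq (mul_one 1) (by rw [e, h]; norm_num), MulChar.map_one]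
  · rw [hsq (-1) hq (by norm_num) (by rw [e, h]; norm_num), hev]

/-- `y ^ d` as a modular function. -/
def bFun {χ : MulChar (ZMod q) ℂ} {d m : ℕ} (hd : χ ^ d = 1) (hm : 2 ≤ m) (hN : 4 ∣ N) :
    ↥(modFun (N * q)) :=
  powMod (yInf_mem_twFun (χ := χ) hm hN) (multHom_pow hd)

theorem ser_bFun {χ : MulChar (ZMod q) ℂ} (hχ : χ ≠ 1) (hev : χ (-1) = 1) {d m : ℕ}
    (hd : χ ^ d = 1) (hm : 2 ≤ m) (hN : 4 ∣ N) :
    ser (N * q) (bFun hd hm hN) = ySer χ m ^ d := by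
  obtain ⟨hmem, hs⟩ := qSer_yInf hχ hev hm
  rw [← hs, ← map_pow, X0Analytic.ser_apply]
  rfl

omit [Fact q.Prime] in
theorem chiC_pow {χ : MulChar (ZMod q) Qbar} {d : ℕ} (hd : χ ^ d = 1) : chiC χ ^ d = 1 :=
  MulChar.ext fun a => by
    rw [MulChar.pow_apply_coe, MulChar.ringHomComp_apply, ← map_pow, ← MulChar.pow_apply_coe, hd,
      MulChar.one_apply_coe, map_one, MulChar.one_apply_coe]

variable {χ : MulChar (ZMod q) Qbar} {m : ℕ}

theorem coeffMap_ySer_pow (hχ : χ ≠ 1) (hev : χ (-1) = 1) {d : ℕ} (hd : χ ^ d = 1) (hm : 2 ≤ m)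
    (hN : 4 ∣ N) :
    coeffMap jEmb (ySer χ m ^ d) =
      ser (N * q) (bFun (N := N)
        (chiC_pow hd) hm hN) := by
  rw [ser_bFun (chiC_ne_one hχ) (chiC_neg_one hev), map_pow, coeffMap_ySer]

theorem ySer_pow_mem (hχ : χ ≠ 1) (hev : χ (-1) = 1) {d : ℕ} (hd : χ ^ d = 1) (hm : 2 ≤ m)
    (hN : 4 ∣ N) : ySer χ m ^ d ∈ modularFunctionFieldBar (N * q) :=
  mem_FLevel_of_ser jEmb _ (coeffMap_ySer_pow hχ hev hd hm hN)

/-- `b = y ^ d`. -/
def bEl (hχ : χ ≠ 1) (hev : χ (-1) = 1) {d : ℕ} (hd : χ ^ d = 1) (hm : 2 ≤ m) (hN : 4 ∣ N) :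
    ↥(modularFunctionFieldBar (N * q)) :=
  ⟨ySer χ m ^ d, ySer_pow_mem hχ hev hd hm hN⟩

/-- All orders of `b` are divisible by `d`. -/
theorem dvd_ord_bEl (hχ : χ ≠ 1) (hev : χ (-1) = 1) {d : ℕ} (hd : χ ^ d = 1)
    (hm : 2 ≤ m) (hN : 36 ∣ N) (P : Place Qbar ↥(modularFunctionFieldBar (N * q))) :
    (d : ℤ) ∣ P.ord (bEl hχ hev hd hm ((show 4 ∣ 36 by norm_num).trans hN)) := by
  have h4 : 4 ∣ N := (show 4 ∣ 36 by norm_num).trans hN
  refine J0Torsion.dvd_ord_of_hasChar (φ := jEmb) (χ := (unitHom (chiC χ)).comp (dMod N q))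
    (fun γ hγ => unitHom_of_trace (chiC_neg_one hev) hN γ hγ)
    ⟨yInf (chiC χ) m, 1, bFun (chiC_pow hd) hm h4, yInf_mem_twFun hm h4, fun h0 => ?_, one_ne_zero, ?_,
      by rw [one_pow, map_one, mul_one]; exact coeffMap_ySer_pow hχ hev hd hm h4⟩ P
  · obtain ⟨hmem, hs⟩ := qSer_yInf (chiC_ne_one hχ) (chiC_neg_one hev) hm
    refine ySer_ne_zero (chiC χ) m ?_
    rw [← hs, show (⟨yInf (chiC χ) m, hmem⟩ : ↥(perMero 1)) = 0 from Subtype.ext h0, map_zero]
  · rfl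

theorem ySer_inertia_fix (χ : MulChar (ZMod q) Qbar) (m : ℕ) {A : ValuationSubring Qbar}
    (hA : A.LiesOverPrime q) {σ : Qbar ≃ₐ[ℚ] Qbar} (hσ : σ ∈ A.inertiaSubgroupIn ℚ) :
    coeffMap (σ : Qbar →+* Qbar) (ySer χ m) = ySer χ m := by
  rw [coeffMap_ySer]
  congr 1
  refine MulChar.ext fun a => ?_
  rw [MulChar.ringHomComp_apply]
  refine BigImage.inertia_root_of_unity (n := q - 1) Fact.out hA hσ
    (fun h => ?_) ?_
  · have := (Fact.out : q.Prime).two_le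
    have := Nat.le_of_dvd (by omega) h
    omega
  · rw [← map_pow, ← Units.val_pow_eq_pow_val, ZMod.units_pow_card_sub_one_eq_one, Units.val_one,
      map_one]

/-- The cover attached to `χ`. -/
def twistCoverOf (χ : MulChar (ZMod q) Qbar) (hχ : χ ≠ 1) (hev : χ (-1) = 1) (hm : 2 ≤ m)
    (hN : 4 ∣ N) : TwistCover N q where
  d := orderOf χ
  d_pos := χ.orderOf_pos
  chi := unitHom (chiC χ)
  chi_pow := unitHom_pow (chiC_pow (pow_orderOf_eq_one χ))
  chi_neg_one := by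
    show chiC χ ((-1 : (ZMod q)ˣ) : ZMod q) = 1
    rw [Units.val_neg, Units.val_one, chiC_neg_one hev]
  y := ySer χ m
  y_ne := ySer_ne_zero χ m
  Y := yInf (chiC χ) m
  mem_twFun := yInf_mem_twFun hm hN
  mem_perMero := (qSer_yInf (chiC_ne_one hχ) (chiC_neg_one hev) hm).1
  qSer_eq := by
    obtain ⟨h, hs⟩ := qSer_yInf (chiC_ne_one hχ) (chiC_neg_one hev) hm
    rw [coeffMap_ySer]
    exact hs
  pow_mem := ySer_pow_mem hχ hev (pow_orderOf_eq_one χ) hm hN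
  inertia_fix := fun _ hA _ hσ => ySer_inertia_fix χ m hA hσ

end Fermat.Agent.XHLite
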