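/-
Products of the `y` in the field of modular functions, and the Gauss sum relating `yInf` to `yZero`.
-/
import Fermat.Agent.XHLite.Analytic.Field

set_option autoImplicit false

noncomputable section

open UpperHalfPlane CongruenceSubgroup ModularCurve
open scoped MatrixGroups

namespace Fermat.Agent.XHLite

open X0Analytic (modFun perMero qSer ser scaleGL)
open J0Torsion (jEmb twFun)

local notation "Qbar" => AlgebraicClosure ℚ

variable {q : ℕ} [Fact q.Prime] {N : ℕ} [NeZero N]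

theorem unitHom_mul (χ χ' : MulChar (ZMod q) ℂ) : unitHom (χ * χ') = unitHom χ * unitHom χ' :=
  MonoidHom.ext fun a => MulChar.mul_apply χ χ' (a : ZMod q)

theorem unitHom_one : unitHom (1 : MulChar (ZMod q) ℂ) = 1 :=
  MonoidHom.ext fun a => MulChar.one_apply_coe a

theorem unitHom_pow' (χ : MulChar (ZMod q) ℂ) (j : ℕ) : unitHom (χ ^ j) = unitHom χ ^ j :=
  MonoidHom.ext fun a => MulChar.pow_apply_coe χ j a

omit [NeZero N] in
theorem multHom_eq_one {χ χ' : MulChar (ZMod q) ℂ} {j : ℕ} (h : χ' * χ ^ j = 1) :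
    (unitHom χ').comp (dMod N q) * ((unitHom χ).comp (dMod N q)) ^ j = 1 := by
  refine MonoidHom.ext fun γ => ?_
  rw [MonoidHom.mul_apply, MonoidHom.pow_apply, MonoidHom.comp_apply, MonoidHom.comp_apply,
    ← MonoidHom.pow_apply, ← MonoidHom.mul_apply, ← unitHom_pow', ← unitHom_mul, h, unitHom_one]
  rfl

variable {χ χ' : MulChar (ZMod q) Qbar} {m m' : ℕ}

omit [Fact q.Prime] in
theorem chiC_mul_pow {j : ℕ} (h : χ' * χ ^ j = 1) : chiC χ' * chiC χ ^ j = 1 :=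
  MulChar.ext fun a => by
    rw [MulChar.mul_apply, MulChar.pow_apply_coe, MulChar.ringHomComp_apply,
      MulChar.ringHomComp_apply, ← map_pow, ← map_mul, ← MulChar.pow_apply_coe, ← MulChar.mul_apply,
      h, MulChar.one_apply_coe, map_one, MulChar.one_apply_coe]

/-- `y' y ^ j` for `χ' χ ^ j = 1`. -/
theorem exists_modFun_mul_pow (hχ : χ ≠ 1) (hev : χ (-1) = 1) (hχ' : χ' ≠ 1)
    (hev' : χ' (-1) = 1) {j : ℕ} (h : χ' * χ ^ j = 1) (hm : 2 ≤ m) (hm' : 2 ≤ m') (hN : 4 ∣ N) :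
    ∃ G : ↥(modFun (N * q)),
      (G : ℍ → ℂ) = yInf (chiC χ') m' * yInf (chiC χ) m ^ j ∧
        coeffMap jEmb (ySer χ' m' * ySer χ m ^ j) = ser (N * q) G := by
  have htw := J0Torsion.mul_mem_twFun (yInf_mem_twFun (χ := chiC χ') (N := N) hm' hN)
    (J0Torsion.pow_mem_twFun (yInf_mem_twFun (χ := chiC χ) (N := N) hm hN) j)
  rw [multHom_eq_one (chiC_mul_pow h)] at htw
  refine ⟨⟨_, J0Torsion.mem_modFun_of_twFun_one htw⟩, rfl, ?_⟩
  obtain ⟨h1, s1⟩ := qSer_yInf (chiC_ne_one hχ') (chiC_neg_one hev') hm'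
  obtain ⟨h2, s2⟩ := qSer_yInf (chiC_ne_one hχ) (chiC_neg_one hev) hm
  rw [map_mul, map_pow, coeffMap_ySer, coeffMap_ySer, ← s1, ← s2, ← map_pow, ← map_mul,
    X0Analytic.ser_apply]
  rfl

theorem ySer_mul_pow_mem (hχ : χ ≠ 1) (hev : χ (-1) = 1) (hχ' : χ' ≠ 1)
    (hev' : χ' (-1) = 1) {j : ℕ} (h : χ' * χ ^ j = 1) (hm : 2 ≤ m) (hm' : 2 ≤ m') (hN : 4 ∣ N) :
    ySer χ' m' * ySer χ m ^ j ∈ modularFunctionFieldBar (N * q) :=
  have ⟨G, _, hG⟩ := exists_modFun_mul_pow hχ hev hχ' hev' h hm hm' hN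
  mem_FLevel_of_ser jEmb G hG

/-- `y * (y ∘ W)`, up to the constant. -/
theorem exists_modFun_mul_zero (hχ : χ ≠ 1) (hev : χ (-1) = 1) (hm : 2 ≤ m) (hN : 4 ∣ N) :
    ∃ G : ↥(modFun (N * q)),
      (G : ℍ → ℂ) = yInf (chiC χ) m * yZero (chiC χ) m ∧
        coeffMap jEmb (ySer χ m * yZeroSer χ m) = ser (N * q) G := by
  have htw := J0Torsion.mul_mem_twFun (yZero_mem_twFun (χ := chiC χ) (N := N) hm hN)
    (J0Torsion.pow_mem_twFun (yInf_mem_twFun (χ := chiC χ) (N := N) hm hN) 1)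
  rw [multHom_eq_one (by rw [pow_one, inv_mul_cancel])] at htw
  refine ⟨⟨_, J0Torsion.mem_modFun_of_twFun_one htw⟩, ?_, ?_⟩
  · show yZero (chiC χ) m * yInf (chiC χ) m ^ 1 = _
    rw [pow_one, mul_comm]
  obtain ⟨h1, s1⟩ := qSer_yInf (chiC_ne_one hχ) (chiC_neg_one hev) hm
  obtain ⟨h2, s2⟩ := qSer_yZero (χ := chiC χ) (chiC_neg_one hev) hm
  rw [mul_comm (ySer χ m), map_mul, coeffMap_ySer, coeffMap_yZeroSer, ← pow_one (ySer _ m), ← s1,
    ← s2, ← map_pow, ← map_mul, X0Analytic.ser_apply]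
  rfl

theorem ySer_mul_yZeroSer_mem (hχ : χ ≠ 1) (hev : χ (-1) = 1) (hm : 2 ≤ m) (hN : 4 ∣ N) :
    ySer χ m * yZeroSer χ m ∈ modularFunctionFieldBar (N * q) :=
  have ⟨G, _, hG⟩ := exists_modFun_mul_zero hχ hev hm hN
  mem_FLevel_of_ser jEmb G hG

/-! ### The Gauss sum over `ℚ̄` -/

theorem exists_rootQ (q : ℕ) [Fact q.Prime] :
    ∃ ζ : Qbar, ζ ^ q = 1 ∧ jEmb ζ = ZMod.stdAddChar (1 : ZMod q) := by
  have : NeZero (q : Qbar) := ⟨Nat.cast_ne_zero.mpr (NeZero.ne q)⟩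
  obtain ⟨ζ, hζ⟩ := HasEnoughRootsOfUnity.exists_primitiveRoot Qbar q
  have h1 : (ZMod.stdAddChar (1 : ZMod q) : ℂ) ^ q = 1 := by
    rw [← AddChar.map_nsmul_eq_pow, nsmul_one, ZMod.natCast_self, AddChar.map_zero_eq_one]
  obtain ⟨i, -, hi⟩ := (hζ.map_of_injective jEmb.injective).eq_pow_of_pow_eq_one h1
  exact ⟨ζ ^ i, by rw [← pow_mul, mul_comm, pow_mul, hζ.pow_eq_one, one_pow], by rw [map_pow, hi]⟩

/-- The additive character of `ℚ̄` over the standard one. -/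
def addCharQ (q : ℕ) [Fact q.Prime] : AddChar (ZMod q) Qbar :=
  AddChar.zmodChar q (exists_rootQ q).choose_spec.1

theorem jEmb_addCharQ (a : ZMod q) : jEmb (addCharQ q a) = ZMod.stdAddChar a := by
  rw [addCharQ, AddChar.zmodChar_apply, map_pow, (exists_rootQ q).choose_spec.2,
    ← AddChar.map_nsmul_eq_pow, nsmul_one, ZMod.natCast_zmod_val]

/-- The Gauss sum of `χ⁻¹`. -/
def gaussQ (χ : MulChar (ZMod q) Qbar) : Qbar := gaussSum χ⁻¹ (addCharQ q)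

theorem jEmb_gaussQ (χ : MulChar (ZMod q) Qbar) : jEmb (gaussQ χ) = gaussInv (chiC χ) := by
  simp only [gaussQ, gaussInv, gaussSum, map_sum, map_mul, jEmb_addCharQ, inv_ringHomComp,
    MulChar.ringHomComp_apply]

theorem gaussQ_ne_zero (hχ : χ ≠ 1) : gaussQ χ ≠ 0 := fun h =>
  gaussInv_ne_zero (chiC_ne_one hχ) (by rw [← jEmb_gaussQ, h, map_zero])

/-- An automorphism fixing the values of `χ` multiplies the Gauss sum by `χ(κ)`. -/
theorem map_gaussQ {σ : Qbar →+* Qbar} (hfix : ∀ a, σ (χ a) = χ a) {κ : (ZMod q)ˣ}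
    (hκ : ∀ μ : Qbar, μ ^ q = 1 → σ μ = μ ^ (κ : ZMod q).val) :
    σ (gaussQ χ) = χ (κ : ZMod q) * gaussQ χ := by
  have h1 : σ (gaussQ χ) = gaussSum χ⁻¹ ((addCharQ q).mulShift (κ : ZMod q)) := by
    simp only [gaussQ, gaussSum, map_sum, map_mul, AddChar.mulShift_apply, MulChar.inv_apply, hfix]
    refine Finset.sum_congr rfl fun a _ => ?_
    rw [hκ, ← AddChar.map_nsmul_eq_pow, nsmul_eq_mul, ZMod.natCast_zmod_val]
    rw [← AddChar.map_nsmul_eq_pow, nsmul_eq_mul, ZMod.natCast_self, zero_mul,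
      AddChar.map_zero_eq_one]
  rw [h1, gaussQ, ← gaussSum_mulShift χ⁻¹ (addCharQ q) κ, ← mul_assoc, ← MulChar.mul_apply,
    mul_inv_cancel, MulChar.one_apply_coe, one_mul]

/-- `χ(b) g(χ⁻¹)` is the ratio of `yZero` and `yInf ∘ (γ ∘ scaling by q)`. -/
theorem yZero_eq_smul_scale (hχ : χ ≠ 1) (hev : χ (-1) = 1) {γ : SL(2, ℤ)}
    (he : (q : ℤ) ∣ γ 1 1) (hc : (4 : ℤ) ∣ γ 1 0) (z : ℍ) :
    jEmb (χ ((γ 0 1 : ℤ) : ZMod q) * gaussQ χ) * yInf (chiC χ) m (γ • (scaleGL q • z)) =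
      yZero (chiC χ) m z := by
  have hb : IsUnit ((γ 0 1 : ℤ) : ZMod q) := by
    refine isUnit_iff_ne_zero.mpr fun h0 => ?_
    have h := congrArg (Int.cast (R := ZMod q)) (det_eq γ)
    rw [Int.cast_sub, Int.cast_mul, Int.cast_mul, (ZMod.intCast_zmod_eq_zero_iff_dvd _ q).mpr he,
      h0, mul_zero, zero_mul, sub_zero, Int.cast_one] at h
    exact zero_ne_one h
  have hg := gaussInv_ne_zero (chiC_ne_one hχ)
  rw [yInf_smul_scale (chiC_neg_one hev) he hc, map_mul, jEmb_gaussQ, inv_ringHomComp,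
    MulChar.ringHomComp_apply]
  have h1 : χ ((γ 0 1 : ℤ) : ZMod q) * χ⁻¹ ((γ 0 1 : ℤ) : ZMod q) = 1 := by
    rw [← MulChar.mul_apply, mul_inv_cancel, MulChar.one_apply hb]
  have h2 := congrArg jEmb h1
  rw [map_mul, map_one] at h2
  field_simp
  linear_combination (yZero (chiC χ) m z) * h2

end Fermat.Agent.XHLite
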