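import Fermat.Agent.XHLite.Analytic.Kummer
import Fermat.Agent.XHLite.Glue.UnitSeries
import Fermat.Agent.X0Analytic.Ser

/-!
The `q`-series of `1 / f₄`, of the numerators and of `yInf`, `yZero`.
-/

set_option autoImplicit false

noncomputable section

open UpperHalfPlane Filter Topology ModularCurve
open scoped MatrixGroups Manifold

namespace Fermat.Agent.XHLite

open X0Analytic (qp perMero qSer rot scaleGL etaQ etaQ_mem qp_mem det_pos_scaleGL)

local notation "castC" => Int.castRingHom ℂ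

/-- A function which is the sum of a power series in `q`. -/
theorem qSer_of_hasSum {f : ℍ → ℂ} (hf : MDiff f) {a : ℕ → ℂ}
    (h : ∀ τ : ℍ, HasSum (fun n => a n • qp 1 τ ^ n) (f τ)) :
    ∃ hm : f ∈ perMero 1,
      qSer 1 ⟨f, hm⟩ = HahnSeries.ofPowerSeries ℤ ℂ (PowerSeries.mk a) := by
  have hp : X0Analytic.IsPer 1 f := fun τ => by
    have h1 := h (((1 : ℕ) : ℝ) +ᵥ τ)
    simp only [X0Analytic.qp_vadd] at h1
    exact h1.unique (h τ)
  have hb : IsBoundedAtImInfty (f * qp 1 ^ 0) := by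
    simpa using isBoundedAtImInfty_of_hasSum_qExpansion (X0Analytic.hpos 1) h
  refine ⟨⟨hf, hp, 0, hb⟩, ?_⟩
  rw [X0Analytic.qSer_eq _ (m := 0) hb, X0Analytic.qSerAux]
  simp only [Nat.cast_zero, neg_zero, HahnSeries.single_zero_one, one_mul]
  congr 1
  ext n
  rw [pow_zero, mul_one, X0Analytic.qExpansion_coeff_eq_of_hasSum hf hp h, PowerSeries.coeff_mk]

/-- `f(m z)` has the expanded series. -/
theorem qSer_scale (m : ℕ) [NeZero m] {f : ℍ → ℂ} (hf : f ∈ perMero 1) :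
    ∃ hm : (fun z : ℍ => f (scaleGL m • z)) ∈ perMero 1,
      qSer 1 ⟨_, hm⟩ = qExpand ℂ m (qSer 1 ⟨f, hf⟩) := by
  obtain ⟨hm, hs⟩ := X0Analytic.qSer_subst (h' := 1) (M := m) ⟨f, hf⟩
    (fun z => scaleGL m • z) (mdifferentiable_smul (det_pos_scaleGL m)) 1 one_ne_zero
    (fun τ => by rw [one_mul, qp_one_scaleGL])
  rw [X0Analytic.rot_one] at hs
  exact ⟨hm, hs⟩

theorem qSer_etaQ' :
    qSer 1 ⟨etaQ, etaQ_mem⟩ =
      coeffMap castC (psUnit etaProd constantCoeff_etaProd : LaurentSeries ℤ) := by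
  rw [X0Analytic.qSer_etaQ, coe_psUnit, coeffMap_ofPowerSeries]

/-- The series of `1 / f₄`. -/
theorem qSer_inv_f4 :
    ∃ hm : (fun z : ℍ => (f4 z)⁻¹) ∈ perMero 1,
      qSer 1 ⟨_, hm⟩ = coeffMap castC ((f4Unit⁻¹ : (LaurentSeries ℤ)ˣ) : LaurentSeries ℤ) := by
  obtain ⟨h4, hs4⟩ := qSer_scale 4 etaQ_mem
  obtain ⟨h2, hs2⟩ := qSer_scale 2 etaQ_mem
  have hper : X0Analytic.IsPer 1 fun z : ℍ => (f4 z)⁻¹ := fun τ => by
    show (f4 _)⁻¹ = (f4 τ)⁻¹
    rw [Nat.cast_one, ← UpperHalfPlane.modular_T_smul, f4Inv_T, ModularGroup.denom_apply]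
    simp [ModularGroup.T]
  have hb : IsBoundedAtImInfty ((fun z : ℍ => (f4 z)⁻¹) * qp 1 ^ 1) := by
    have h := ((X0Analytic.tendsto_etaQ.comp (tendsto_upperGL_atImInfty 2 0 1)).pow 4).div
      ((X0Analytic.tendsto_etaQ.comp (tendsto_upperGL_atImInfty 4 0 1)).pow 8) (by simp)
    refine (h.congr fun τ => ?_).isBigO_one ℝ
    have e : ∀ (s : ℕ) [NeZero s], X0Analytic.upperGL s 0 1 • τ = scaleGL s • τ := fun s _ => by
      apply UpperHalfPlane.ext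
      simp [X0Analytic.coe_upperGL_smul, X0Analytic.coe_scaleGL_smul]
    simp only [Pi.div_apply, Function.comp_apply, e, Pi.mul_apply, pow_one, f4]
    have := X0Analytic.qp_ne_zero 1 τ
    field_simp
  have hm : (fun z : ℍ => (f4 z)⁻¹) ∈ perMero 1 := ⟨inv_f4_mdiff, hper, 1, hb⟩
  refine ⟨hm, ?_⟩
  have hid : (⟨_, hm⟩ : ↥(perMero 1)) *
      (⟨qp 1, qp_mem 1⟩ * (⟨_, h4⟩ : ↥(perMero 1)) ^ 8) = (⟨_, h2⟩ : ↥(perMero 1)) ^ 4 := by
    refine Subtype.ext (funext fun τ => ?_)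
    simp only [MulMemClass.coe_mul, SubmonoidClass.coe_pow, Pi.mul_apply, Pi.pow_apply, f4]
    have := X0Analytic.qp_ne_zero 1 τ
    have := etaQ_ne_zero (scaleGL 4 • τ)
    have := etaQ_ne_zero (scaleGL 2 • τ)
    field_simp
  have h := congrArg (qSer 1) hid
  rw [map_mul, map_mul, map_pow, map_pow, hs4, hs2, X0Analytic.qSer_qp, qSer_etaQ',
    ← coeffMap_qExpand, ← coeffMap_qExpand] at h
  set φ : (LaurentSeries ℤ)ˣ →* (LaurentSeries ℂ)ˣ := Units.map (coeffMap castC).toMonoidHom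
  set E := psUnit etaProd constantCoeff_etaProd
  have hq : (HahnSeries.single (1 : ℤ) (1 : ℂ)) = ((φ qUnit : (LaurentSeries ℂ)ˣ) : LaurentSeries ℂ) := by
    show _ = coeffMap castC (HahnSeries.single 1 1)
    rw [coeffMap_single, eq_intCast, Int.cast_one]
  have h' : qSer 1 ⟨_, hm⟩ * ((φ (qUnit * expandUnit 4 E ^ 8) : (LaurentSeries ℂ)ˣ) : LaurentSeries ℂ) =
      ((φ (expandUnit 2 E ^ 4) : (LaurentSeries ℂ)ˣ) : LaurentSeries ℂ) := by
    rw [map_mul, map_pow, map_pow, Units.val_mul, Units.val_pow_eq_pow_val,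
      Units.val_pow_eq_pow_val, ← hq]
    exact h
  rw [show coeffMap castC ((f4Unit⁻¹ : (LaurentSeries ℤ)ˣ) : LaurentSeries ℤ) =
    ((φ f4Unit⁻¹ : (LaurentSeries ℂ)ˣ) : LaurentSeries ℂ) from rfl,
    show f4Unit⁻¹ = expandUnit 2 E ^ 4 * (qUnit * expandUnit 4 E ^ 8)⁻¹ by
      rw [f4Unit, inv_pow, mul_inv_rev, inv_inv],
    map_mul, map_inv, Units.val_mul]
  exact (Units.eq_mul_inv_iff_mul_eq _).mpr h'

variable {q : ℕ} [Fact q.Prime]

/-- The series of `yInf`, over any ring. -/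
def ySer {R : Type*} [CommRing R] (χ : MulChar (ZMod q) R) (m : ℕ) : LaurentSeries R :=
  HahnSeries.ofPowerSeries ℤ R (PowerSeries.mk (numInfCoeff χ (2 * m))) *
    coeffMap (Int.castRingHom R) ((f4Unit⁻¹ ^ m : (LaurentSeries ℤ)ˣ) : LaurentSeries ℤ)

/-- The series of `yZero`, over any ring. -/
def yZeroSer {R : Type*} [CommRing R] (χ : MulChar (ZMod q) R) (m : ℕ) : LaurentSeries R :=
  HahnSeries.ofPowerSeries ℤ R (PowerSeries.mk (numZeroCoeff χ (2 * m))) *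
    coeffMap (Int.castRingHom R)
      ((expandUnit q f4Unit⁻¹ ^ m : (LaurentSeries ℤ)ˣ) : LaurentSeries ℤ)

theorem map_mk {R S : Type*} [CommRing R] [CommRing S] (f : R →+* S) (a : ℕ → R) :
    (PowerSeries.mk a).map f = PowerSeries.mk fun n => f (a n) := by
  ext n
  simp

theorem coeffMap_ySer {R S : Type*} [CommRing R] [CommRing S] (f : R →+* S)
    (χ : MulChar (ZMod q) R) (m : ℕ) : coeffMap f (ySer χ m) = ySer (χ.ringHomComp f) m := by
  rw [ySer, ySer, map_mul, coeffMap_ofPowerSeries, map_mk, coeffMap_coeffMap,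
    RingHom.ext_int (f.comp (Int.castRingHom R)) (Int.castRingHom S)]
  simp only [map_numInfCoeff]

theorem coeffMap_yZeroSer {R S : Type*} [CommRing R] [CommRing S] (f : R →+* S)
    (χ : MulChar (ZMod q) R) (m : ℕ) :
    coeffMap f (yZeroSer χ m) = yZeroSer (χ.ringHomComp f) m := by
  rw [yZeroSer, yZeroSer, map_mul, coeffMap_ofPowerSeries, map_mk, coeffMap_coeffMap,
    RingHom.ext_int (f.comp (Int.castRingHom R)) (Int.castRingHom S)]
  simp only [map_numZeroCoeff]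

theorem ySer_ne_zero {R : Type*} [CommRing R] [Nontrivial R] (χ : MulChar (ZMod q) R) (m : ℕ) :
    ySer χ m ≠ 0 := by
  intro h
  have hu : IsUnit (coeffMap (Int.castRingHom R)
      ((f4Unit⁻¹ ^ m : (LaurentSeries ℤ)ˣ) : LaurentSeries ℤ)) := (Units.isUnit _).map _
  rw [ySer, IsUnit.mul_left_eq_zero hu] at h
  have h1 := congrArg (fun x : LaurentSeries R => x.coeff ((1 : ℕ) : ℤ)) h
  simp only [HahnSeries.ofPowerSeries_apply_coeff, PowerSeries.coeff_mk, numInfCoeff_one,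
    HahnSeries.coeff_zero] at h1
  exact one_ne_zero h1

variable {χ : MulChar (ZMod q) ℂ} {m : ℕ}

/-- The series of `yInf`. -/
theorem qSer_yInf (hχ : χ ≠ 1) (hev : χ (-1) = 1) (hm : 2 ≤ m) :
    ∃ hmem : yInf χ m ∈ perMero 1, qSer 1 ⟨_, hmem⟩ = ySer χ m := by
  obtain ⟨hn, hns⟩ := qSer_of_hasSum (numInf_mdiff (χ := χ) (by omega))
    (hasSum_numInf hχ hev (show 3 ≤ 2 * m by omega) (even_two_mul m))
  obtain ⟨hf, hfs⟩ := qSer_inv_f4
  have e : ((⟨_, hn⟩ : ↥(perMero 1)) * (⟨_, hf⟩ : ↥(perMero 1)) ^ m : ↥(perMero 1)).1 = yInf χ m :=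
    funext fun z => rfl
  refine ⟨e ▸ Subtype.prop _, ?_⟩
  rw [show (⟨yInf χ m, _⟩ : ↥(perMero 1)) = ⟨_, hn⟩ * (⟨_, hf⟩ : ↥(perMero 1)) ^ m from
    Subtype.ext e.symm, map_mul, map_pow, hns, hfs, ySer, Units.val_pow_eq_pow_val, map_pow]

/-- The series of `yZero`. -/
theorem qSer_yZero (hev : χ (-1) = 1) (hm : 2 ≤ m) :
    ∃ hmem : yZero χ m ∈ perMero 1, qSer 1 ⟨_, hmem⟩ = yZeroSer χ m := by
  obtain ⟨hn, hns⟩ := qSer_of_hasSum (numZero_mdiff (χ := χ) (by omega))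
    (hasSum_numZero hev (show 3 ≤ 2 * m by omega) (even_two_mul m))
  obtain ⟨hf₀, hfs₀⟩ := qSer_inv_f4
  obtain ⟨hf, hfs⟩ := qSer_scale q hf₀
  rw [hfs₀, ← coeffMap_qExpand] at hfs
  have e : ((⟨_, hn⟩ : ↥(perMero 1)) * (⟨_, hf⟩ : ↥(perMero 1)) ^ m : ↥(perMero 1)).1 =
      yZero χ m := funext fun z => rfl
  refine ⟨e ▸ Subtype.prop _, ?_⟩
  rw [show (⟨yZero χ m, _⟩ : ↥(perMero 1)) = ⟨_, hn⟩ * (⟨_, hf⟩ : ↥(perMero 1)) ^ m from
    Subtype.ext e.symm, map_mul, map_pow, hns, hfs, yZeroSer, Units.val_pow_eq_pow_val, map_pow]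
  rfl

end Fermat.Agent.XHLite
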