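import Fermat.Agent.X0Analytic.Theta
import Mathlib.Topology.Separation.Lemmas

/-!
The weight two form `η(4z)^8 / η(2z)^4` of level four: it has no zero on `ℍ` and starts with `q`.
-/

set_option autoImplicit false

noncomputable section

open UpperHalfPlane Filter Topology CongruenceSubgroup
open scoped MatrixGroups Manifold

namespace Fermat.Agent.XHLite

open X0Analytic (etaQ qp scaleGL upperGL det_pos_scaleGL coe_scaleGL_smul)

local notation "Δ" => ModularForm.discriminant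

/-- `q ∏ (1 - q^(4n))^8 / (1 - q^(2n))^4`. -/
def f4 (z : ℍ) : ℂ := qp 1 z * etaQ (scaleGL 4 • z) ^ 8 / etaQ (scaleGL 2 • z) ^ 4

theorem etaQ_ne_zero (z : ℍ) : etaQ z ≠ 0 := by
  have h := ModularForm.discriminant_ne_zero z
  rw [X0Analytic.discriminant_eq] at h
  exact fun h0 => h (by simp [h0])

theorem f4_ne_zero (z : ℍ) : f4 z ≠ 0 :=
  div_ne_zero (mul_ne_zero (X0Analytic.qp_ne_zero 1 z) (pow_ne_zero _ (etaQ_ne_zero _)))
    (pow_ne_zero _ (etaQ_ne_zero _))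

theorem f4_mdiff : MDiff f4 := by
  have h4 : MDiff fun z : ℍ => etaQ (scaleGL 4 • z) :=
    X0Analytic.mdiff_etaQ.comp (mdifferentiable_smul (det_pos_scaleGL 4))
  have h2 : MDiff fun z : ℍ => etaQ (scaleGL 2 • z) :=
    X0Analytic.mdiff_etaQ.comp (mdifferentiable_smul (det_pos_scaleGL 2))
  exact UpperHalfPlane.mdifferentiable_iff.mpr
    (((UpperHalfPlane.mdifferentiable_iff.mp (X0Analytic.qp_mdiff 1)).mul
      ((UpperHalfPlane.mdifferentiable_iff.mp h4).fun_pow 8)).div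
      ((UpperHalfPlane.mdifferentiable_iff.mp h2).fun_pow 4)
      fun z _ => pow_ne_zero _ (etaQ_ne_zero _))

theorem qp_one_scaleGL (m : ℕ) [NeZero m] (z : ℍ) : qp 1 (scaleGL m • z) = qp 1 z ^ m := by
  simp only [qp, Function.Periodic.qParam, coe_scaleGL_smul, ← Complex.exp_nat_mul]
  congr 1
  push_cast
  ring

theorem f4_pow_six (z : ℍ) : f4 z ^ 6 * Δ (scaleGL 2 • z) = Δ (scaleGL 4 • z) ^ 2 := by
  simp only [X0Analytic.discriminant_eq, Pi.mul_apply, Pi.pow_apply, qp_one_scaleGL, f4]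
  have := etaQ_ne_zero (scaleGL 2 • z)
  field_simp

/-- Dilations intertwine an element of `Γ₀(m)` with an element of `SL₂(ℤ)` of the same
automorphy factor. -/
theorem exists_scale_conj (m : ℕ) [NeZero m] {γ : SL(2, ℤ)} (h : (m : ℤ) ∣ γ 1 0) :
    ∃ δ : SL(2, ℤ), δ 1 1 = γ 1 1 ∧ γ 1 0 = m * δ 1 0 ∧ ∀ z : ℍ,
      scaleGL m • (γ • z) = δ • (scaleGL m • z) ∧
        UpperHalfPlane.denom (δ : GL (Fin 2) ℝ) (scaleGL m • z : ℍ) =
          UpperHalfPlane.denom (γ : GL (Fin 2) ℝ) z := by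
  obtain ⟨t, ht⟩ := h
  have hdet := γ.det_coe
  rw [Matrix.det_fin_two, ht] at hdet
  let δ : SL(2, ℤ) := ⟨!![γ 0 0, (m : ℤ) * γ 0 1; t, γ 1 1], by
    rw [Matrix.det_fin_two_of]; linear_combination hdet⟩
  refine ⟨δ, rfl, ht, fun z => ?_⟩
  have hm : (m : ℂ) ≠ 0 := Nat.cast_ne_zero.mpr (NeZero.ne m)
  have hden : UpperHalfPlane.denom (δ : GL (Fin 2) ℝ) (scaleGL m • z : ℍ) =
      UpperHalfPlane.denom (γ : GL (Fin 2) ℝ) z := by
    rw [ModularGroup.denom_apply, ModularGroup.denom_apply, coe_scaleGL_smul]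
    simp only [δ, Matrix.SpecialLinearGroup.coe_mk,
      Matrix.of_apply, Matrix.cons_val', Matrix.cons_val_zero, Matrix.cons_val_one,
      Matrix.cons_val_fin_one, ht]
    push_cast
    ring
  refine ⟨?_, hden⟩
  apply UpperHalfPlane.ext
  rw [coe_scaleGL_smul, UpperHalfPlane.coe_specialLinearGroup_apply,
    UpperHalfPlane.coe_specialLinearGroup_apply]
  simp only [coe_scaleGL_smul, δ, ht, Matrix.SpecialLinearGroup.coe_mk, Matrix.of_apply,
    Matrix.cons_val', Matrix.cons_val_zero, Matrix.cons_val_one, Matrix.cons_val_fin_one,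
    algebraMap_int_eq, eq_intCast, Complex.ofReal_intCast]
  push_cast
  ring

/-- A function with values in a finite set of `ℂ` which is continuous on a preconnected set is
constant there. -/
theorem eq_of_pow_eq_one {X : Type*} [TopologicalSpace X] {s : Set X} (hs : IsPreconnected s)
    {G : X → ℂ} (hG : ContinuousOn G s) {n : ℕ} (hn : 0 < n) (h : ∀ x ∈ s, G x ^ n = 1)
    {x y : X} (hx : x ∈ s) (hy : y ∈ s) : G x = G y := by
  have hfin : ({w : ℂ | w ^ n = 1}).Countable := by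
    refine ((Polynomial.nthRoots n (1 : ℂ)).toFinset.finite_toSet.subset fun w hw => ?_).countable
    rw [Finset.mem_coe, Multiset.mem_toFinset, Polynomial.mem_nthRoots hn]
    exact hw
  exact Set.Countable.isTotallyDisconnected hfin (G '' s) (by rintro _ ⟨w, hw, rfl⟩; exact h w hw)
    (hs.image G hG) ⟨x, hx, rfl⟩ ⟨y, hy, rfl⟩

theorem denom_mul_SL (γ δ : SL(2, ℤ)) (z : ℍ) :
    UpperHalfPlane.denom ((γ * δ : SL(2, ℤ)) : GL (Fin 2) ℝ) z =
      UpperHalfPlane.denom (γ : GL (Fin 2) ℝ) (δ • z : ℍ) *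
        UpperHalfPlane.denom (δ : GL (Fin 2) ℝ) z := by
  have e : ((γ * δ : SL(2, ℤ)) : GL (Fin 2) ℝ) = (γ : GL (Fin 2) ℝ) * (δ : GL (Fin 2) ℝ) := by
    simp
  rw [e, UpperHalfPlane.denom_cocycle_σ]
  simp [UpperHalfPlane.σ]

/-- `f4` has weight two for `γ`. -/
def F4Inv (γ : SL(2, ℤ)) : Prop :=
  ∀ z : ℍ, f4 (γ • z) = UpperHalfPlane.denom (γ : GL (Fin 2) ℝ) z ^ (2 : ℤ) * f4 z

theorem f4Inv_mul {γ δ : SL(2, ℤ)} (hγ : F4Inv γ) (hδ : F4Inv δ) : F4Inv (γ * δ) := fun z => by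
  rw [mul_smul, hγ, hδ, ← mul_assoc, ← mul_zpow, denom_mul_SL]

theorem f4Inv_one : F4Inv 1 := fun z => by simp [UpperHalfPlane.denom]

theorem f4Inv_inv {γ : SL(2, ℤ)} (hγ : F4Inv γ) : F4Inv γ⁻¹ := fun z => by
  have h := hγ (γ⁻¹ • z)
  rw [smul_inv_smul] at h
  have hd : UpperHalfPlane.denom (γ : GL (Fin 2) ℝ) (γ⁻¹ • z : ℍ) *
      UpperHalfPlane.denom ((γ⁻¹ : SL(2, ℤ)) : GL (Fin 2) ℝ) z = 1 := by
    have h1 : UpperHalfPlane.denom ((γ * γ⁻¹ : SL(2, ℤ)) : GL (Fin 2) ℝ) z = 1 := by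
      rw [mul_inv_cancel]; simp [UpperHalfPlane.denom]
    rwa [denom_mul_SL] at h1
  rw [h, ← mul_assoc, ← mul_zpow, mul_comm (UpperHalfPlane.denom _ (z : ℂ)), hd, one_zpow, one_mul]

theorem f4Inv_zpow {γ : SL(2, ℤ)} (hγ : F4Inv γ) (n : ℤ) : F4Inv (γ ^ n) := by
  induction n with
  | zero => rw [zpow_zero]; exact f4Inv_one
  | succ n ih => rw [zpow_add_one]; exact f4Inv_mul ih hγ
  | pred n ih => rw [zpow_sub_one]; exact f4Inv_mul ih (f4Inv_inv hγ)

theorem f4Inv_T : F4Inv ModularGroup.T := fun z => by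
  have h1 : qp 1 (ModularGroup.T • z) = qp 1 z := by
    rw [UpperHalfPlane.modular_T_smul]
    exact_mod_cast X0Analytic.qp_vadd 1 z
  have hm : ∀ m : ℕ, [NeZero m] →
      etaQ (scaleGL m • (ModularGroup.T • z)) = etaQ (scaleGL m • z) := fun m _ => by
    show X0Analytic.etaFun _ = X0Analytic.etaFun _
    rw [qp_one_scaleGL, qp_one_scaleGL, h1]
  rw [f4, f4, h1, hm 4, hm 2, ModularGroup.denom_apply]
  simp [ModularGroup.T]

theorem f4Inv_neg_one : F4Inv (-1) := fun z => by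
  rw [ModularGroup.SL_neg_smul, one_smul]
  simp [UpperHalfPlane.denom]

theorem f4_smul_pow_six {γ : SL(2, ℤ)} (hγ : (4 : ℤ) ∣ γ 1 0) (z : ℍ) :
    f4 (γ • z) ^ 6 = (UpperHalfPlane.denom (γ : GL (Fin 2) ℝ) z ^ (2 : ℤ) * f4 z) ^ 6 := by
  obtain ⟨a, -, -, ha⟩ := exists_scale_conj 4 (γ := γ) (by exact_mod_cast hγ)
  obtain ⟨b, -, -, hb⟩ := exists_scale_conj 2 (γ := γ)
    (by exact (show (2 : ℤ) ∣ 4 by norm_num).trans hγ)
  have h := f4_pow_six (γ • z)
  rw [(ha z).1, (hb z).1, X0Analytic.discriminant_smul, X0Analytic.discriminant_smul, (ha z).2,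
    (hb z).2, mul_pow, ← f4_pow_six z] at h
  have hd : UpperHalfPlane.denom (γ : GL (Fin 2) ℝ) z ^ (12 : ℤ) * Δ (scaleGL 2 • z) ≠ 0 :=
    mul_ne_zero (zpow_ne_zero _ (UpperHalfPlane.denom_ne_zero _ _))
      (ModularForm.discriminant_ne_zero _)
  refine mul_right_cancel₀ hd ?_
  rw [h, mul_pow]
  simp only [← zpow_natCast, ← zpow_mul]
  norm_num
  ring

theorem exists_f4_multiplier {γ : SL(2, ℤ)} (hγ : (4 : ℤ) ∣ γ 1 0) :
    ∃ ε : ℂ, ∀ z : ℍ,
      f4 (γ • z) = ε * (UpperHalfPlane.denom (γ : GL (Fin 2) ℝ) z ^ (2 : ℤ) * f4 z) := by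
  set G : ℍ → ℂ := fun z =>
    f4 (γ • z) / (UpperHalfPlane.denom (γ : GL (Fin 2) ℝ) z ^ (2 : ℤ) * f4 z)
  have hne : ∀ z : ℍ, UpperHalfPlane.denom (γ : GL (Fin 2) ℝ) z ^ (2 : ℤ) * f4 z ≠ 0 :=
    fun z => mul_ne_zero (zpow_ne_zero _ (UpperHalfPlane.denom_ne_zero _ _)) (f4_ne_zero z)
  have hG : Continuous G := by
    refine ((f4_mdiff.continuous).comp
      ((mdifferentiable_smul (X0Analytic.det_pos_SL γ)).continuous)).div₀ ?_ hne
    refine ((Continuous.zpow₀ ?_ 2 fun z => Or.inl (UpperHalfPlane.denom_ne_zero _ _))).mul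
      f4_mdiff.continuous
    unfold UpperHalfPlane.denom
    fun_prop
  refine ⟨G UpperHalfPlane.I, fun z => ?_⟩
  rw [← eq_of_pow_eq_one isPreconnected_univ hG.continuousOn (n := 6) (by norm_num)
    (fun w _ => by rw [div_pow, f4_smul_pow_six hγ, div_self (pow_ne_zero _ (hne w))])
    (Set.mem_univ z) (Set.mem_univ _), div_mul_cancel₀ _ (hne z)]

/-- `U = (1 0; 4 1)`. -/
def unipFour : SL(2, ℤ) := ⟨!![1, 0; 4, 1], by rw [Matrix.det_fin_two_of]; norm_num⟩

theorem unipFour_eq : unipFour = ModularGroup.S * ModularGroup.T ^ (-4 : ℤ) * ModularGroup.S⁻¹ := by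
  rw [eq_mul_inv_iff_mul_eq]
  apply Subtype.ext
  simp only [Matrix.SpecialLinearGroup.coe_mul, ModularGroup.coe_T_zpow]
  simp [unipFour, ModularGroup.S, Matrix.mul_fin_two]

/-- `f4` at the cusp `0`. -/
def f4S (w : ℍ) : ℂ :=
  64 * f4 (ModularGroup.S • w) / UpperHalfPlane.denom (ModularGroup.S : GL (Fin 2) ℝ) w ^ (2 : ℤ)

theorem denom_S (w : ℍ) : UpperHalfPlane.denom (ModularGroup.S : GL (Fin 2) ℝ) w = (w : ℂ) := by
  exact ModularGroup.denom_S w

theorem scaleGL_S_smul (m : ℕ) [NeZero m] (w : ℍ) :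
    scaleGL m • (ModularGroup.S • w) = ModularGroup.S • (upperGL 1 0 m • w) := by
  apply UpperHalfPlane.ext
  rw [coe_scaleGL_smul, UpperHalfPlane.modular_S_smul, UpperHalfPlane.modular_S_smul]
  simp only [UpperHalfPlane.coe_mk, X0Analytic.coe_upperGL_smul]
  simp only [Nat.cast_one, Int.cast_zero, one_mul, add_zero, inv_neg, inv_div]
  ring

theorem f4S_pow_six (w : ℍ) :
    f4S w ^ 6 * etaQ (upperGL 1 0 2 • w) ^ 24 = etaQ (upperGL 1 0 4 • w) ^ 48 := by
  have h := f4_pow_six (ModularGroup.S • w)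
  rw [scaleGL_S_smul, scaleGL_S_smul, X0Analytic.discriminant_smul,
    X0Analytic.discriminant_smul] at h
  simp only [denom_S] at h
  simp only [X0Analytic.coe_upperGL_smul, X0Analytic.discriminant_eq, Pi.mul_apply,
    Pi.pow_apply] at h
  rw [X0Analytic.qp_one_upperGL 1 0 2 4 2 (by norm_num),
    X0Analytic.qp_one_upperGL 1 0 4 4 1 (by norm_num)] at h
  simp only [Int.cast_zero, mul_zero, zero_div, Complex.exp_zero, one_mul, pow_one, Nat.cast_one,
    add_zero, Nat.cast_ofNat, zpow_ofNat] at h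
  rw [f4S, denom_S, zpow_ofNat]
  have := w.ne_zero
  have := X0Analytic.qp_ne_zero 4 w
  field_simp at h ⊢
  linear_combination h / 4096

theorem continuous_f4S : Continuous f4S := by
  unfold f4S
  simp only [denom_S]
  exact ((continuous_const.mul (f4_mdiff.continuous.comp
    ((mdifferentiable_smul (X0Analytic.det_pos_SL ModularGroup.S)).continuous))).div₀
    (UpperHalfPlane.continuous_coe.zpow₀ 2 fun w => Or.inl w.ne_zero)
    fun w => zpow_ne_zero _ w.ne_zero)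

theorem im_upperGL_smul (A : ℕ) (B : ℤ) (D : ℕ) [NeZero A] [NeZero D] (w : ℍ) :
    (upperGL A B D • w).im = A * w.im / D := by
  rw [← UpperHalfPlane.coe_im, X0Analytic.coe_upperGL_smul, Complex.div_natCast_im]
  simp

theorem tendsto_upperGL_atImInfty (A : ℕ) (B : ℤ) (D : ℕ) [NeZero A] [NeZero D] :
    Tendsto (fun w : ℍ => upperGL A B D • w) atImInfty atImInfty := by
  rw [atImInfty, tendsto_comap_iff]
  simp only [Function.comp_def, im_upperGL_smul]
  exact ((tendsto_comap).const_mul_atTop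
    (by exact_mod_cast Nat.pos_of_ne_zero (NeZero.ne A))).atTop_div_const
    (by exact_mod_cast Nat.pos_of_ne_zero (NeZero.ne D))

theorem tendsto_f4S_pow_six : Tendsto (fun w => f4S w ^ 6) atImInfty (𝓝 1) := by
  have h2 : Tendsto (fun w : ℍ => etaQ (upperGL 1 0 2 • w) ^ 24) atImInfty (𝓝 ((1 : ℂ) ^ 24)) :=
    (X0Analytic.tendsto_etaQ.comp (tendsto_upperGL_atImInfty 1 0 2)).pow 24
  have h4 : Tendsto (fun w : ℍ => etaQ (upperGL 1 0 4 • w) ^ 48) atImInfty (𝓝 ((1 : ℂ) ^ 48)) :=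
    (X0Analytic.tendsto_etaQ.comp (tendsto_upperGL_atImInfty 1 0 4)).pow 48
  have h := h4.div h2 (by simp)
  rw [one_pow, one_pow, div_one] at h
  exact h.congr fun w => by
    rw [Pi.div_apply, ← f4S_pow_six, mul_div_cancel_right₀ _ (pow_ne_zero _ (etaQ_ne_zero _))]

theorem f4Inv_unipFour : F4Inv unipFour := by
  obtain ⟨ε, hε⟩ := exists_f4_multiplier (γ := unipFour) (by simp [unipFour])
  suffices hone : ε = 1 by
    intro z
    rw [hε z, hone, one_mul]
  -- on a half plane `f4S` follows the principal sixth root of its sixth power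
  have hper : ∀ w : ℍ, f4S ((-4 : ℝ) +ᵥ w) = ε * f4S w := by
    intro w
    have hT : ModularGroup.T ^ (-4 : ℤ) • w = (-4 : ℝ) +ᵥ w := by
      rw [UpperHalfPlane.modular_T_zpow_smul]; norm_num
    have hUS : unipFour * ModularGroup.S = ModularGroup.S * ModularGroup.T ^ (-4 : ℤ) := by
      rw [unipFour_eq, inv_mul_cancel_right]
    have h := hε (ModularGroup.S • w)
    rw [← mul_smul, hUS, mul_smul, hT] at h
    have hd : UpperHalfPlane.denom (unipFour : GL (Fin 2) ℝ) (ModularGroup.S • w : ℍ) * (w : ℂ) =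
        (((-4 : ℝ) +ᵥ w : ℍ) : ℂ) := by
      rw [UpperHalfPlane.coe_vadd, ModularGroup.denom_apply, UpperHalfPlane.modular_S_smul,
        UpperHalfPlane.coe_mk]
      simp [unipFour]
      field_simp [w.ne_zero]
    rw [f4S, f4S, h, denom_S, denom_S, ← hd, mul_zpow]
    have := w.ne_zero
    have := UpperHalfPlane.denom_ne_zero (unipFour : GL (Fin 2) ℝ) (ModularGroup.S • w)
    field_simp
  have hev : ∀ᶠ w : ℍ in atImInfty, f4S w ^ 6 ∈ Complex.slitPlane :=
    tendsto_f4S_pow_six.eventually (Complex.isOpen_slitPlane.mem_nhds Complex.one_mem_slitPlane)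
  obtain ⟨A, hA⟩ := (UpperHalfPlane.atImInfty_mem _).mp hev
  set s : Set ℍ := {w | A ≤ w.im} with hs
  have hpre : IsPreconnected s := by
    rw [← UpperHalfPlane.isEmbedding_coe.isInducing.isPreconnected_image]
    have himg : ((↑) : ℍ → ℂ) '' s = {z : ℂ | 0 < z.im} ∩ {z : ℂ | A ≤ z.im} := by
      ext z
      constructor
      · rintro ⟨w, hw, rfl⟩
        exact ⟨w.im_pos, hw⟩
      · rintro ⟨h1, h2⟩
        exact ⟨⟨z, h1⟩, h2, rfl⟩
    rw [himg]
    exact ((convex_halfSpace_im_gt 0).inter (convex_halfSpace_im_ge A)).isPreconnected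
  set root : ℍ → ℂ := fun w => (f4S w ^ 6) ^ ((6 : ℕ) : ℂ)⁻¹ with hroot
  have hroot6 : ∀ w, root w ^ 6 = f4S w ^ 6 := fun w => Complex.cpow_nat_inv_pow _ (by norm_num)
  have hf0 : ∀ w, f4S w ≠ 0 := fun w =>
    div_ne_zero (mul_ne_zero (by norm_num) (f4_ne_zero _))
      (zpow_ne_zero _ (UpperHalfPlane.denom_ne_zero _ _))
  have hroot0 : ∀ w, root w ≠ 0 := fun w h0 => pow_ne_zero 6 (hf0 w) (by
    rw [← hroot6, h0]; simp)
  have hcont : ContinuousOn (fun w => f4S w / root w) s :=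
    (continuous_f4S.continuousOn).div
      ((continuous_f4S.pow 6).continuousOn.cpow continuousOn_const fun w hw => hA w hw)
      fun w _ => hroot0 w
  have hcst : ∀ x ∈ s, ∀ y ∈ s, f4S x / root x = f4S y / root y := fun x hx y hy =>
    eq_of_pow_eq_one hpre hcont (by norm_num : 0 < 6) (fun w _ => by
      rw [div_pow, hroot6, div_self (pow_ne_zero _ (hf0 w))]) hx hy
  have hlim : Tendsto root atImInfty (𝓝 1) := by
    have := tendsto_f4S_pow_six.cpow (tendsto_const_nhds (x := ((6 : ℕ) : ℂ)⁻¹))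
      Complex.one_mem_slitPlane
    simpa [hroot] using this
  have hsh : Tendsto (fun w : ℍ => (-4 : ℝ) +ᵥ w) atImInfty atImInfty := by
    rw [atImInfty, tendsto_comap_iff]
    simpa [Function.comp_def] using tendsto_comap
  have hratio : Tendsto (fun w : ℍ => root ((-4 : ℝ) +ᵥ w) / root w) atImInfty (𝓝 1) := by
    simpa [Function.comp_def, Pi.div_def] using (hlim.comp hsh).div hlim one_ne_zero
  refine tendsto_nhds_unique (f := fun _ : ℍ => ε) (l := atImInfty) tendsto_const_nhds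
    (hratio.congr' ?_)
  filter_upwards [(UpperHalfPlane.atImInfty_mem s).mpr ⟨A, fun w hw => hw⟩] with w hw
  have h := hcst _ (show (-4 : ℝ) +ᵥ w ∈ s by simpa [hs] using hw) w hw
  rw [hper, div_eq_div_iff (hroot0 _) (hroot0 _)] at h
  rw [div_eq_iff (hroot0 _)]
  apply mul_left_cancel₀ (hf0 w)
  linear_combination -h

theorem unipFour_zpow (n : ℤ) :
    ((unipFour ^ n : SL(2, ℤ)) : Matrix (Fin 2) (Fin 2) ℤ) = !![1, 0; 4 * n, 1] := by
  induction n with
  | zero => simp [Matrix.one_fin_two]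
  | succ n ih =>
    rw [zpow_add_one, Matrix.SpecialLinearGroup.coe_mul, ih]
    simp [unipFour, mul_add]
  | pred n ih =>
    rw [zpow_sub_one, Matrix.SpecialLinearGroup.coe_mul, Matrix.SpecialLinearGroup.coe_inv, ih]
    simp [unipFour, Matrix.adjugate_fin_two]
    ring

theorem f4Inv_of_mem {γ : SL(2, ℤ)} (h : (4 : ℤ) ∣ γ 1 0) : F4Inv γ := by
  induction hn : (γ 1 0).natAbs using Nat.strong_induction_on generalizing γ with
  | _ n ih =>
    have hdet := γ.det_coe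
    rw [Matrix.det_fin_two] at hdet
    by_cases h0 : γ 1 0 = 0
    · rw [h0, mul_zero, sub_zero] at hdet
      rcases Int.mul_eq_one_iff_eq_one_or_neg_one.mp hdet with ⟨ha, hd⟩ | ⟨ha, hd⟩
      · rw [show γ = ModularGroup.T ^ (γ 0 1) by
          ext i j; fin_cases i <;> fin_cases j <;> simp [ModularGroup.coe_T_zpow, h0, ha, hd]]
        exact f4Inv_zpow f4Inv_T _
      · rw [show γ = -1 * ModularGroup.T ^ (-γ 0 1) by
          ext i j
          fin_cases i <;> fin_cases j <;> simp [ModularGroup.coe_T_zpow, h0, ha, hd]]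
        exact f4Inv_mul f4Inv_neg_one (f4Inv_zpow f4Inv_T _)
    · set m := (γ 1 0).natAbs with hm
      have hm0 : 0 < m := Int.natAbs_pos.mpr h0
      have hodd : ¬ (2 : ℤ) ∣ γ 1 1 := fun hd => by
        obtain ⟨s, hs⟩ := hd
        obtain ⟨t, ht⟩ := h
        rw [hs, ht] at hdet
        have : (2 : ℤ) ∣ 1 := ⟨γ 0 0 * s - 2 * γ 0 1 * t, by linear_combination -hdet⟩
        norm_num at this
      have hm4 : (4 : ℤ) ∣ m := by rw [hm]; exact Int.dvd_natAbs.mpr h
      obtain ⟨r, hr⟩ : ∃ r, r = Int.bmod (γ 1 1) m := ⟨_, rfl⟩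
      obtain ⟨n1, hn1⟩ : γ 1 0 ∣ r - γ 1 1 := by
        refine Int.natAbs_dvd.mp ?_
        rw [← hm, hr]
        exact Int.ModEq.dvd (show (γ 1 1) ≡ Int.bmod (γ 1 1) m [ZMOD m] from Int.bmod_emod.symm)
      have hr1 : -(m : ℤ) ≤ 2 * r ∧ 2 * r < (m : ℤ) + 1 := by
        have := Int.le_bmod (x := γ 1 1) hm0
        have := Int.bmod_lt (x := γ 1 1) hm0
        constructor <;> omega
      have hrodd : ¬ (2 : ℤ) ∣ r := fun hd => hodd (by
        have h2 : (2 : ℤ) ∣ γ 1 0 * n1 := ((show (2 : ℤ) ∣ 4 by norm_num).trans h).mul_right _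
        rw [← hn1] at h2
        omega)
      have hr2 : 2 * r.natAbs < m := by omega
      obtain ⟨s, hs⟩ : ∃ s, s = Int.bmod (γ 1 0) (4 * r.natAbs) := ⟨_, rfl⟩
      have hs4 : 0 < 4 * r.natAbs := by omega
      obtain ⟨n2, hn2⟩ : 4 * r ∣ s - γ 1 0 := by
        refine Int.natAbs_dvd.mp ?_
        rw [Int.natAbs_mul, hs]
        exact Int.ModEq.dvd
          (show (γ 1 0) ≡ Int.bmod (γ 1 0) (4 * r.natAbs) [ZMOD ((4 * r.natAbs : ℕ) : ℤ)] from Int.bmod_emod.symm)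
      have hs2 : s.natAbs < m := by
        have := Int.le_bmod (x := γ 1 0) hs4
        have := Int.bmod_lt (x := γ 1 0) hs4
        omega
      set δ := γ * ModularGroup.T ^ n1 * unipFour ^ n2 with hδ
      have hc : δ 1 0 = s := by
        simp only [hδ, Matrix.SpecialLinearGroup.coe_mul, ModularGroup.coe_T_zpow, unipFour_zpow,
          Matrix.mul_apply, Fin.sum_univ_two, Matrix.of_apply, Matrix.cons_val',
          Matrix.cons_val_zero, Matrix.cons_val_one, Matrix.cons_val_fin_one]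
        linear_combination (-4 * n2) * hn1 - hn2
      have hδ4 : (4 : ℤ) ∣ δ 1 0 := by
        rw [hc, show s = γ 1 0 + 4 * r * n2 by linarith]
        exact h.add ((dvd_mul_right 4 r).mul_right n2)
      have := ih _ (by rw [hc, ← hn]; exact hs2) hδ4 rfl
      rw [show γ = δ * (unipFour ^ n2)⁻¹ * (ModularGroup.T ^ n1)⁻¹ by
        rw [hδ, mul_inv_cancel_right, mul_inv_cancel_right]]
      exact f4Inv_mul (f4Inv_mul this (f4Inv_inv (f4Inv_zpow f4Inv_unipFour _)))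
        (f4Inv_inv (f4Inv_zpow f4Inv_T _))

/-- `f4(s z)` has weight two on `Γ₀(4 s)`. -/
theorem f4_scale_smul (s : ℕ) [NeZero s] {γ : SL(2, ℤ)} (h : ((4 * s : ℕ) : ℤ) ∣ γ 1 0) (z : ℍ) :
    f4 (scaleGL s • (γ • z)) =
      UpperHalfPlane.denom (γ : GL (Fin 2) ℝ) z ^ (2 : ℤ) * f4 (scaleGL s • z) := by
  obtain ⟨δ, -, hc, hδ⟩ := exists_scale_conj s (γ := γ)
    ((Int.natCast_dvd_natCast.mpr (dvd_mul_left s 4)).trans h)
  have h4 : (4 : ℤ) ∣ δ 1 0 := by
    rw [hc, Nat.cast_mul, mul_comm (s : ℤ)] at h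
    exact (mul_dvd_mul_iff_right (by exact_mod_cast NeZero.ne s)).mp h
  rw [(hδ z).1, f4Inv_of_mem h4, (hδ z).2]

end Fermat.Agent.XHLite
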