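/-
Eisenstein series `∑' c(v) / (v₀ z + v₁) ^ k` with bounded coefficients, and their expansion at `∞`
when `c` is a product of a function of `v₀ / M` and a periodic function of `v₁`.
-/
import Mathlib.NumberTheory.ModularForms.EisensteinSeries.MDifferentiable
import Mathlib.NumberTheory.ModularForms.EisensteinSeries.IsBoundedAtImInfty
import Mathlib.NumberTheory.ModularForms.EisensteinSeries.QExpansion
import Mathlib.Analysis.Complex.LocallyUniformLimit
import Fermat.Agent.X0Analytic.PerMero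

set_option autoImplicit false

noncomputable section

open UpperHalfPlane EisensteinSeries ModularForm Filter Complex CongruenceSubgroup
open scoped MatrixGroups Topology Manifold Real

namespace Fermat.Agent.XHLite

/-- Coefficients of absolute value at most one. -/
def CoeffBound (c : (Fin 2 → ℤ) → ℂ) : Prop := ∀ v, ‖c v‖ ≤ 1

/-- The Eisenstein series with coefficients `c`. -/
def eisC (k : ℕ) (c : (Fin 2 → ℤ) → ℂ) (z : ℍ) : ℂ := ∑' v : Fin 2 → ℤ, c v * eisSummand k v z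

/-- Right multiplication of row vectors by an element of `SL₂(ℤ)`. -/
def rowMulEquiv (g : SL(2, ℤ)) : (Fin 2 → ℤ) ≃ (Fin 2 → ℤ) where
  toFun v := Matrix.vecMul v (g : Matrix (Fin 2) (Fin 2) ℤ)
  invFun v := Matrix.vecMul v ((g⁻¹ : SL(2, ℤ)) : Matrix (Fin 2) (Fin 2) ℤ)
  left_inv v := by
    simp only [Matrix.vecMul_vecMul, ← Matrix.SpecialLinearGroup.coe_mul, mul_inv_cancel,
      Matrix.SpecialLinearGroup.coe_one, Matrix.vecMul_one]
  right_inv v := by
    simp only [Matrix.vecMul_vecMul, ← Matrix.SpecialLinearGroup.coe_mul, inv_mul_cancel,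
      Matrix.SpecialLinearGroup.coe_one, Matrix.vecMul_one]

variable {k : ℕ} {c : (Fin 2 → ℤ) → ℂ}

theorem norm_eisC_term_le (hc : CoeffBound c) (v : Fin 2 → ℤ) (z : ℍ) :
    ‖c v * eisSummand k v z‖ ≤ ‖eisSummand k v z‖ := by
  rw [norm_mul]
  exact mul_le_of_le_one_left (norm_nonneg _) (hc v)

theorem summable_eisC (hk : 3 ≤ k) (hc : CoeffBound c) (z : ℍ) :
    Summable fun v => c v * eisSummand k v z :=
  Summable.of_norm_bounded (summable_norm_eisSummand (by exact_mod_cast hk) z)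
    (norm_eisC_term_le hc · z)

/-- The value at `g • z`. -/
theorem eisC_smul (k : ℕ) (c : (Fin 2 → ℤ) → ℂ) (g : SL(2, ℤ)) (z : ℍ) :
    eisC k c (g • z) = UpperHalfPlane.denom (g : GL (Fin 2) ℝ) z ^ (k : ℤ) *
      eisC k (fun v => c (Matrix.vecMul v ((g⁻¹ : SL(2, ℤ)) : Matrix (Fin 2) (Fin 2) ℤ))) z := by
  simp only [eisC, eisSummand_SL2_apply]
  rw [← tsum_mul_left, ← (rowMulEquiv g⁻¹).tsum_eq]
  refine tsum_congr fun v => ?_
  simp only [rowMulEquiv, Equiv.coe_fn_mk]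
  rw [Matrix.vecMul_vecMul, ← Matrix.SpecialLinearGroup.coe_mul, inv_mul_cancel,
    Matrix.SpecialLinearGroup.coe_one, Matrix.vecMul_one]
  ring

/-- An element acting on the coefficients by a scalar acts on the series by that scalar. -/
theorem eisC_smul_of_eigen (k : ℕ) (g : SL(2, ℤ)) {ε : ℂ}
    (h : ∀ v, c v = ε * c (Matrix.vecMul v (g : Matrix (Fin 2) (Fin 2) ℤ))) (z : ℍ) :
    eisC k c (g • z) = ε * UpperHalfPlane.denom (g : GL (Fin 2) ℝ) z ^ (k : ℤ) * eisC k c z := by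
  rw [eisC_smul]
  have : (fun v => c (Matrix.vecMul v ((g⁻¹ : SL(2, ℤ)) : Matrix (Fin 2) (Fin 2) ℤ))) =
      fun v => ε * c v := funext fun v => by
    rw [h, Matrix.vecMul_vecMul, ← Matrix.SpecialLinearGroup.coe_mul, inv_mul_cancel,
      Matrix.SpecialLinearGroup.coe_one, Matrix.vecMul_one]
  rw [this]
  simp only [eisC, mul_assoc, tsum_mul_left]
  ring

theorem eisC_bounded (hk : 3 ≤ k) (hc : CoeffBound c) : IsBoundedAtImInfty (eisC k c) := by
  rw [UpperHalfPlane.isBoundedAtImInfty_iff]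
  refine ⟨∑' v : Fin 2 → ℤ, r ⟨⟨1, 2⟩, two_pos⟩ ^ (-(k : ℝ)) * ‖v‖ ^ (-(k : ℝ)), 2, fun z hz => ?_⟩
  set m : ℤ := -⌊z.re⌋ with hm
  set z' : ℍ := (m : ℝ) +ᵥ z with hz'
  have hk' : (2 : ℝ) < k := by exact_mod_cast (show 2 < k by omega)
  have hstrip : z' ∈ verticalStrip 1 2 := by
    refine ⟨?_, ?_⟩
    · rw [hz', UpperHalfPlane.vadd_re, hm, abs_le]
      push_cast
      constructor <;> linarith [Int.floor_le z.re, Int.lt_floor_add_one z.re]
    · rw [hz', UpperHalfPlane.vadd_im]; exact hz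
  have hsum := (summable_one_div_norm_rpow (k := (k : ℝ)) hk').mul_left
    (r ⟨⟨1, 2⟩, two_pos⟩ ^ (-(k : ℝ)))
  let sh : (Fin 2 → ℤ) ≃ (Fin 2 → ℤ) :=
    { toFun := fun v => ![v 0, v 1 + m * v 0]
      invFun := fun v => ![v 0, v 1 - m * v 0]
      left_inv := fun v => by funext i; fin_cases i <;> simp
      right_inv := fun v => by funext i; fin_cases i <;> simp }
  have hshift : ∀ v, eisSummand k (sh v) z = eisSummand k v z' := by
    intro v
    simp only [eisSummand, sh, Equiv.coe_fn_mk, Matrix.cons_val_zero, Matrix.cons_val_one,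
      Matrix.cons_val_fin_one, hz', UpperHalfPlane.coe_vadd]
    push_cast
    ring_nf
  calc ‖eisC k c z‖
      ≤ ∑' v : Fin 2 → ℤ, ‖eisSummand k v z‖ :=
        tsum_of_norm_bounded (summable_norm_eisSummand (by exact_mod_cast hk) z).hasSum
          (norm_eisC_term_le hc · z)
    _ = ∑' v : Fin 2 → ℤ, ‖eisSummand k v z'‖ := by
        rw [← sh.tsum_eq (fun v => ‖eisSummand k v z‖)]
        simp only [hshift]
    _ ≤ _ := by
        refine (summable_norm_eisSummand (by exact_mod_cast hk) z').tsum_le_tsum (fun v => ?_) hsum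
        have h := summand_bound_of_mem_verticalStrip (k := (k : ℝ)) (by positivity) v two_pos hstrip
        simpa [eisSummand, norm_zpow, Real.rpow_neg, Real.rpow_natCast] using h

theorem eisC_mdiff (hk : 3 ≤ k) (hc : CoeffBound c) : MDiff (eisC k c) := by
  rw [UpperHalfPlane.mdifferentiable_iff]
  intro z hz
  set V : Set ℂ := {w | |w.re| < |z.re| + 1 ∧ z.im / 2 < w.im}
  have hVo : IsOpen V :=
    (isOpen_lt (Complex.continuous_re.abs) continuous_const).inter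
      (isOpen_lt continuous_const Complex.continuous_im)
  have hzim : 0 < z.im := hz
  have hzV : z ∈ V := ⟨by linarith, by linarith⟩
  have hVsub : V ⊆ upperHalfPlaneSet := fun w hw => show 0 < w.im by linarith [hw.2]
  have hk' : (2 : ℝ) < k := by exact_mod_cast (show 2 < k by omega)
  have hd : DifferentiableOn ℂ
      (fun w => ∑' v : Fin 2 → ℤ, c v * (↑ₕeisSummand k v) w) V := by
    refine differentiableOn_tsum_of_summable_norm
      ((summable_one_div_norm_rpow (k := (k : ℝ)) hk').mul_left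
        (r ⟨⟨|z.re| + 1, z.im / 2⟩, by positivity⟩ ^ (-(k : ℝ))))
      (fun v => ((eisSummand_extension_differentiableOn k v).mono hVsub).const_mul _) hVo
      (fun v w hw => ?_)
    set w' : ℍ := ⟨w, hVsub hw⟩
    have hw' : w' ∈ verticalStrip (|z.re| + 1) (z.im / 2) := ⟨hw.1.le, hw.2.le⟩
    have h := summand_bound_of_mem_verticalStrip (k := (k : ℝ)) (by positivity) v (by positivity) hw'
    show ‖c v * eisSummand k v (ofComplex (w' : ℂ))‖ ≤ _
    rw [UpperHalfPlane.ofComplex_apply]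
    refine (norm_eisC_term_le hc v w').trans ?_
    simpa [eisSummand, norm_zpow, Real.rpow_neg, Real.rpow_natCast] using h
  exact (hd.differentiableAt (hVo.mem_nhds hzV)).differentiableWithinAt

/-! ### The expansion at `∞` -/

/-- The coefficients `α(v₀ / M) β(v₁)`, supported on `M ∣ v₀`. -/
def prodCoeff (M : ℕ) (α β : ℤ → ℂ) (v : Fin 2 → ℤ) : ℂ :=
  if (M : ℤ) ∣ v 0 then α (v 0 / M) * β (v 1) else 0

theorem coeffBound_prodCoeff (M : ℕ) {α β : ℤ → ℂ} (hα : ∀ u, ‖α u‖ ≤ 1) (hβ : ∀ v, ‖β v‖ ≤ 1) :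
    CoeffBound (prodCoeff M α β) := fun v => by
  rw [prodCoeff]
  split_ifs
  · rw [norm_mul]
    exact mul_le_one₀ (hα _) (norm_nonneg _) (hβ _)
  · simp

/-- The finite Fourier transform of a function of period `P`. -/
def fourier (P : ℕ) (β : ℤ → ℂ) (m : ℕ) : ℂ :=
  ∑ r : Fin P, β (r : ℕ) * cexp (2 * π * Complex.I * ((r : ℕ) * m / P))

/-- The constant of the Lipschitz formula. -/
def lipConst (k : ℕ) : ℂ := (-2 * π * Complex.I) ^ k / (k - 1).factorial

theorem lipConst_ne_zero (k : ℕ) : lipConst k ≠ 0 :=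
  div_ne_zero (pow_ne_zero _ (by simp [Real.pi_ne_zero])) (by simp [Nat.factorial_ne_zero])

theorem eisSummand_residue {P : ℕ} [NeZero P] (M' : ℕ) (u : ℕ+) (z : ℍ) (n : ℤ) (r : ℕ) :
    eisSummand k ![((P * M' : ℕ) : ℤ) * u, (r : ℤ) + n * P] z =
      (P : ℂ) ^ (-(k : ℤ)) * (1 / (((M' : ℂ) * (u : ℕ) * z + (r : ℂ) / P) + n) ^ k) := by
  have hP : (P : ℂ) ≠ 0 := Nat.cast_ne_zero.mpr (NeZero.ne P)
  simp only [eisSummand, Matrix.cons_val_zero, Matrix.cons_val_one, Matrix.cons_val_fin_one]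
  rw [zpow_neg, zpow_neg, zpow_natCast, zpow_natCast, one_div, ← mul_inv, ← mul_pow]
  congr 2
  push_cast
  field_simp
  ring

theorem tsum_lipschitz (hk : 3 ≤ k) (P : ℕ) [NeZero P] (M' : ℕ) [NeZero M'] (u : ℕ+) (r : ℕ)
    (z : ℍ) :
    ∑' n : ℤ, 1 / (((M' : ℂ) * (u : ℕ) * z + (r : ℂ) / P) + n) ^ k =
      lipConst k * ∑' m : ℕ+, cexp (2 * π * Complex.I * ((r : ℂ) * (m : ℕ) / P)) *
        ((m : ℕ) : ℂ) ^ (k - 1) * X0Analytic.qp 1 z ^ (M' * (u : ℕ) * (m : ℕ)) := by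
  have him : 0 < ((M' : ℂ) * (u : ℕ) * z + (r : ℂ) / P).im := by
    simp only [add_im, mul_im, mul_re, natCast_re, natCast_im, mul_zero, zero_mul, sub_zero,
      add_zero, div_natCast_im, zero_div, UpperHalfPlane.coe_im]
    have := z.im_pos
    have hM : (0 : ℝ) < M' := by exact_mod_cast Nat.pos_of_ne_zero (NeZero.ne M')
    have hu : (0 : ℝ) < (u : ℕ) := by exact_mod_cast u.pos
    positivity
  have h := EisensteinSeries.qExpansion_identity_pnat (k := k - 1) (by omega) ⟨_, him⟩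
  rw [show k - 1 + 1 = k by omega] at h
  rw [lipConst]
  refine h.trans ?_
  congr 1
  refine tsum_congr fun m => ?_
  have hexp : cexp (2 * π * Complex.I * ((M' : ℂ) * (u : ℕ) * z + (r : ℂ) / P)) ^ (m : ℕ) =
      cexp (2 * π * Complex.I * ((r : ℂ) * (m : ℕ) / P)) *
        X0Analytic.qp 1 z ^ (M' * (u : ℕ) * (m : ℕ)) := by
    rw [X0Analytic.qp, Function.Periodic.qParam, ← Complex.exp_nat_mul, ← Complex.exp_nat_mul,
      ← Complex.exp_add]
    congr 1
    push_cast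
    ring
  show ((m : ℕ) : ℂ) ^ (k - 1) *
    cexp (2 * π * Complex.I * ((M' : ℂ) * (u : ℕ) * z + (r : ℂ) / P)) ^ (m : ℕ) = _
  rw [hexp]
  ring

theorem summable_lipschitz_term (P : ℕ) (M' : ℕ) [NeZero M'] (u : ℕ+) (r : ℕ) (z : ℍ) :
    Summable fun m : ℕ+ => cexp (2 * π * Complex.I * ((r : ℂ) * (m : ℕ) / P)) *
      ((m : ℕ) : ℂ) ^ (k - 1) * X0Analytic.qp 1 z ^ (M' * (u : ℕ) * (m : ℕ)) := by
  have hs := summable_pow_mul_cexp (k - 1) (⟨M', Nat.pos_of_ne_zero (NeZero.ne M')⟩ * u) z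
  refine Summable.of_norm_bounded (hs.norm.comp_injective PNat.coe_injective) fun m => le_of_eq ?_
  have hre : (2 * π * Complex.I * ((r : ℂ) * (m : ℕ) / P)).re = 0 := by
    simp [mul_re, div_natCast_im]
  rw [norm_mul, norm_mul, Complex.norm_exp, hre, Real.exp_zero, one_mul, Function.comp_apply,
    norm_mul, norm_pow, norm_pow, norm_pow]
  congr 1
  rw [X0Analytic.qp, Function.Periodic.qParam, ← norm_pow, ← norm_pow, ← Complex.exp_nat_mul,
    ← Complex.exp_nat_mul]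
  congr 2
  rw [show (((⟨M', Nat.pos_of_ne_zero (NeZero.ne M')⟩ * u : ℕ+)) : ℕ) = M' * (u : ℕ) from rfl]
  push_cast
  ring

theorem tsum_periodic_lipschitz (hk : 3 ≤ k) {P : ℕ} [NeZero P] (M' : ℕ) [NeZero M'] {β : ℤ → ℂ}
    (hper : ∀ v, β (v + P) = β v) (hβ : ∀ v, ‖β v‖ ≤ 1) (u : ℕ+) (z : ℍ) :
    ∑' v : ℤ, β v * eisSummand k ![((P * M' : ℕ) : ℤ) * u, v] z =
      (P : ℂ) ^ (-(k : ℤ)) * lipConst k *
        ∑' m : ℕ+, fourier P β m * ((m : ℕ) : ℂ) ^ (k - 1) *
          X0Analytic.qp 1 z ^ (M' * (u : ℕ) * (m : ℕ)) := by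
  have hperiodic : Function.Periodic β (P : ℤ) := hper
  have hsum : Summable fun v : ℤ => β v * eisSummand k ![((P * M' : ℕ) : ℤ) * u, v] z := by
    refine Summable.of_norm_bounded
      ((summable_prod_eisSummand hk z).norm.prod_factor (((P * M' : ℕ) : ℤ) * u)) fun v => ?_
    rw [norm_mul]
    exact mul_le_of_le_one_left (norm_nonneg _) (hβ v)
  have hsum' : Summable fun p : ℤ × Fin P => β ((Int.divModEquiv P).symm p) *
      eisSummand k ![((P * M' : ℕ) : ℤ) * u, (Int.divModEquiv P).symm p] z :=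
    (Int.divModEquiv P).symm.summable_iff.mpr hsum
  set g : Fin P → ℤ → ℂ := fun r n => β (r : ℕ) * ((P : ℂ) ^ (-(k : ℤ)) *
    (1 / (((M' : ℂ) * (u : ℕ) * z + ((r : ℕ) : ℂ) / P) + n) ^ k)) with hg
  have hterm : ∀ (n : ℤ) (r : Fin P),
      β ((Int.divModEquiv P).symm (n, r)) *
          eisSummand k ![((P * M' : ℕ) : ℤ) * u, (Int.divModEquiv P).symm (n, r)] z = g r n := by
    intro n r
    have hval : (Int.divModEquiv P).symm (n, r) = ((r : ℕ) : ℤ) + n * P := by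
      simp [Int.divModEquiv, add_comm]
    rw [hval, eisSummand_residue]
    exact congrArg (· * _) ((hperiodic.int_mul n) _)
  have hgs : ∀ r, Summable (g r) := fun r =>
    (hsum'.comp_injective (show Function.Injective fun n : ℤ => ((n, r) : ℤ × Fin P) from
      fun a b h => congrArg Prod.fst h)).congr fun n => hterm n r
  have hcol : ∀ r, ∑' n, g r n = (P : ℂ) ^ (-(k : ℤ)) * lipConst k * (β (r : ℕ) *
      ∑' m : ℕ+, cexp (2 * π * Complex.I * (((r : ℕ) : ℂ) * (m : ℕ) / P)) *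
        ((m : ℕ) : ℂ) ^ (k - 1) * X0Analytic.qp 1 z ^ (M' * (u : ℕ) * (m : ℕ))) := fun r => by
    rw [hg, tsum_mul_left, tsum_mul_left, tsum_lipschitz hk]
    ring
  rw [← (Int.divModEquiv P).symm.tsum_eq, Summable.tsum_prod hsum',
    tsum_congr fun n => tsum_congr fun r => hterm n r]
  simp only [tsum_fintype]
  rw [Summable.tsum_finsetSum fun r _ => hgs r, Finset.sum_congr rfl fun r _ => hcol r,
    ← Finset.mul_sum]
  congr 1
  simp only [← tsum_mul_left]
  rw [← Summable.tsum_finsetSum fun (r : Fin P) _ =>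
    (summable_lipschitz_term (k := k) P M' u (r : ℕ) z).mul_left (β ((r : ℕ) : ℤ))]
  refine tsum_congr fun m => ?_
  rw [fourier, Finset.sum_mul, Finset.sum_mul]
  exact Finset.sum_congr rfl fun r _ => by ring

/-- The coefficients of the expansion: `∑_{u m = n} α(u) β̂(m) m ^ (k - 1)`. -/
def sigmaTwist (k : ℕ) (α : ℤ → ℂ) (b : ℕ → ℂ) (n : ℕ) : ℂ :=
  ∑ x ∈ n.divisorsAntidiagonal, α (x.1 : ℤ) * b x.2 * (x.2 : ℂ) ^ (k - 1)

/-- The expansion at `∞`, as a power series in `q ^ M'`. -/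
theorem hasSum_sigmaTwist (k : ℕ) {α : ℤ → ℂ} {b : ℕ → ℂ} {C : ℝ} (hα : ∀ u, ‖α u‖ ≤ 1)
    (hb : ∀ m, ‖b m‖ ≤ C) {w : ℂ} (hw : ‖w‖ < 1) :
    HasSum (fun n : ℕ => sigmaTwist k α b n * w ^ n)
      (∑' p : ℕ+ × ℕ+, α ((p.1 : ℕ) : ℤ) * b p.2 * ((p.2 : ℕ) : ℂ) ^ (k - 1) *
        w ^ ((p.1 : ℕ) * (p.2 : ℕ))) := by
  set F : ℕ+ × ℕ+ → ℂ := fun p => α ((p.1 : ℕ) : ℤ) * b p.2 * ((p.2 : ℕ) : ℂ) ^ (k - 1) *
    w ^ ((p.1 : ℕ) * (p.2 : ℕ)) with hF
  have hsum : Summable F := by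
    refine Summable.of_norm_bounded (((summable_prod_mul_pow (k - 1) hw).norm).mul_left C)
      fun p => ?_
    simp only [hF]
    rw [mul_assoc, norm_mul, norm_mul]
    exact mul_le_mul_of_nonneg_right
      ((mul_le_of_le_one_left (norm_nonneg _) (hα _)).trans (hb _)) (norm_nonneg _)
  have h2 : HasSum (fun n : ℕ+ => sigmaTwist k α b n * w ^ (n : ℕ)) (∑' p, F p) := by
    refine ((sigmaAntidiagonalEquivProd.hasSum_iff).mpr hsum.hasSum).sigma fun n => ?_
    have := hasSum_fintype fun c : ↥(Nat.divisorsAntidiagonal (n : ℕ)) =>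
      (F ∘ sigmaAntidiagonalEquivProd) ⟨n, c⟩
    convert this using 1
    rw [sigmaTwist, Finset.sum_mul, ← Finset.sum_attach]
    refine Finset.sum_congr rfl fun c _ => ?_
    have hc := (Nat.mem_divisorsAntidiagonal.mp c.2).1
    simp only [hF, Function.comp_apply, sigmaAntidiagonalEquivProd, divisorsAntidiagonalFactors,
      Equiv.coe_fn_mk, PNat.mk_coe, hc]
  refine (Function.Injective.hasSum_iff PNat.coe_injective fun n hn => ?_).mp h2
  have h0 : n = 0 := by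
    by_contra hne
    exact hn ⟨⟨n, Nat.pos_of_ne_zero hne⟩, rfl⟩
  simp [h0, sigmaTwist]

theorem norm_fourier_le (P : ℕ) {β : ℤ → ℂ} (hβ : ∀ v, ‖β v‖ ≤ 1) (m : ℕ) :
    ‖fourier P β m‖ ≤ P := by
  refine (norm_sum_le_of_le (n := fun _ : Fin P => (1 : ℝ)) _ fun r _ => ?_).trans (le_of_eq (by simp))
  rw [norm_mul, Complex.norm_exp]
  simp only [mul_re, div_natCast_re, div_natCast_im]
  simpa using hβ _

/-- The expansion of the series with product coefficients. -/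
theorem hasSum_eisC_prodCoeff (hk : 3 ≤ k) (hk2 : Even k) {P : ℕ} [NeZero P] (M' : ℕ) [NeZero M']
    {α β : ℤ → ℂ} (hα : ∀ u, ‖α u‖ ≤ 1) (hαe : ∀ u, α (-u) = α u)
    (hβ : ∀ v, ‖β v‖ ≤ 1) (hβe : ∀ v, β (-v) = β v) (hper : ∀ v, β (v + P) = β v) (z : ℍ) :
    HasSum (fun n : ℕ => 2 * ((P : ℂ) ^ (-(k : ℤ)) * lipConst k) *
        sigmaTwist k α (fourier P β) n * (X0Analytic.qp 1 z ^ M') ^ n)
      (eisC k (prodCoeff (P * M') α β) z - α 0 * ∑' v : ℤ, β v * ((v : ℂ) ^ k)⁻¹) := by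
  set N := P * M' with hN
  have hN0 : (N : ℤ) ≠ 0 := by exact_mod_cast mul_ne_zero (NeZero.ne P) (NeZero.ne M')
  set w := X0Analytic.qp 1 z ^ M' with hw
  have hw1 : ‖w‖ < 1 := by
    rw [hw, norm_pow]
    exact pow_lt_one₀ (norm_nonneg _) (X0Analytic.norm_qp_lt_one 1 z) (NeZero.ne M')
  set c := prodCoeff N α β with hc
  have hcb : CoeffBound c := coeffBound_prodCoeff N hα hβ
  set G : ℤ × ℤ → ℂ := fun p => α p.1 * (β p.2 * eisSummand k ![(N : ℤ) * p.1, p.2] z) with hG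
  have hinj : Function.Injective fun p : ℤ × ℤ => (![(N : ℤ) * p.1, p.2] : Fin 2 → ℤ) := by
    intro a b h
    have h0 := congrFun h 0
    have h1 := congrFun h 1
    exact Prod.ext (mul_left_cancel₀ hN0 (by simpa using h0)) (by simpa using h1)
  have hGc : ∀ p : ℤ × ℤ, c ![(N : ℤ) * p.1, p.2] * eisSummand k ![(N : ℤ) * p.1, p.2] z = G p := by
    intro p
    simp [hc, hG, prodCoeff, Int.mul_ediv_cancel_left _ hN0, mul_assoc]
  have hzero : ∀ v, v ∉ Set.range (fun p : ℤ × ℤ => (![(N : ℤ) * p.1, p.2] : Fin 2 → ℤ)) →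
      c v * eisSummand k v z = 0 := by
    intro v hv
    have : ¬ (N : ℤ) ∣ v 0 := by
      rintro ⟨t, ht⟩
      exact hv ⟨(t, v 1), by funext i; fin_cases i <;> simp [ht]⟩
    simp [hc, prodCoeff, this]
  have hsG : Summable G := ((summable_eisC hk hcb z).comp_injective hinj).congr hGc
  have h1 : eisC k c z = ∑' t : ℤ, ∑' v : ℤ, G (t, v) := by
    rw [eisC, ← hinj.tsum_eq (f := fun v => c v * eisSummand k v z), ← hsG.tsum_prod]
    · exact tsum_congr hGc
    · intro v hv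
      by_contra hr
      exact hv (hzero v hr)
  have heven : ∀ t : ℤ, (∑' v : ℤ, G (t, v)) = ∑' v : ℤ, G (-t, v) := by
    intro t
    rw [← (Equiv.neg ℤ).tsum_eq (fun v => G (-t, v))]
    refine tsum_congr fun v => ?_
    simp only [hG, Equiv.neg_apply, hαe, hβe, eisSummand, Matrix.cons_val_zero, Matrix.cons_val_one,
      Matrix.cons_val_fin_one, mul_neg, Int.cast_neg, neg_mul]
    rw [← neg_add, Even.neg_zpow (((Int.even_coe_nat k).mpr hk2).neg)]
  have h0 : ∑' v : ℤ, G (0, v) = α 0 * ∑' v : ℤ, β v * ((v : ℂ) ^ k)⁻¹ := by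
    simp only [hG, tsum_mul_left]
    simp [eisSummand]
  rw [h1, tsum_int_eq_zero_add_two_mul_tsum_pnat (fun t => (heven t).symm) hsG.prod, h0,
    add_sub_cancel_left, nsmul_eq_mul, Nat.cast_ofNat]
  set K := (P : ℂ) ^ (-(k : ℤ)) * lipConst k with hK
  have hu : ∀ u : ℕ+, ∑' v : ℤ, G (((u : ℕ) : ℤ), v) = K * ∑' m : ℕ+,
      α ((u : ℕ) : ℤ) * fourier P β m * ((m : ℕ) : ℂ) ^ (k - 1) * w ^ ((u : ℕ) * (m : ℕ)) := by
    intro u
    simp only [hG, tsum_mul_left, hN]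
    rw [tsum_periodic_lipschitz hk M' hper hβ u z, hK, mul_left_comm, ← tsum_mul_left]
    congr 1
    refine tsum_congr fun m => ?_
    rw [hw, ← pow_mul, mul_assoc M']
    ring
  have hs := hasSum_sigmaTwist k hα (norm_fourier_le P hβ) hw1 (b := fourier P β)
  have hsp : Summable fun p : ℕ+ × ℕ+ => α ((p.1 : ℕ) : ℤ) * fourier P β p.2 *
      ((p.2 : ℕ) : ℂ) ^ (k - 1) * w ^ ((p.1 : ℕ) * (p.2 : ℕ)) := by
    refine Summable.of_norm_bounded (((summable_prod_mul_pow (k - 1) hw1).norm).mul_left (P : ℝ))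
      fun p => ?_
    rw [mul_assoc, norm_mul, norm_mul]
    exact mul_le_mul_of_nonneg_right
      ((mul_le_of_le_one_left (norm_nonneg _) (hα _)).trans (norm_fourier_le P hβ _))
      (norm_nonneg _)
  rw [tsum_congr hu, tsum_mul_left, ← hsp.tsum_prod, ← mul_assoc]
  simpa only [hK, mul_assoc] using hs.mul_left (2 * K)

end Fermat.Agent.XHLite
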