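import Fermat.Agent.XHLite.Analytic.Eisenstein
import Fermat.Agent.XHLite.Analytic.WeightTwo

/-!
Boundedness at every cusp of `f(g z) / j(g, z) ^ k` for the Eisenstein series and for `1 / f₄(s z)`.
-/

set_option autoImplicit false

noncomputable section

open UpperHalfPlane Filter Topology
open scoped MatrixGroups Manifold

namespace Fermat.Agent.XHLite

open X0Analytic (etaQ qp scaleGL upperGL coe_scaleGL_smul)

local notation "Δ" => ModularForm.discriminant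

/-- Eisenstein series are bounded at every cusp. -/
theorem isBounded_eisC_smul {k : ℕ} (hk : 3 ≤ k) {c : (Fin 2 → ℤ) → ℂ} (hc : CoeffBound c)
    (g : SL(2, ℤ)) :
    IsBoundedAtImInfty fun τ =>
      (UpperHalfPlane.denom (g : GL (Fin 2) ℝ) τ ^ (k : ℤ))⁻¹ * eisC k c (g • τ) := by
  have h := eisC_bounded hk (c := fun v =>
    c (Matrix.vecMul v ((g⁻¹ : SL(2, ℤ)) : Matrix (Fin 2) (Fin 2) ℤ))) fun v => hc _
  convert h using 1
  funext τ
  rw [eisC_smul, inv_mul_cancel_left₀ (zpow_ne_zero _ (UpperHalfPlane.denom_ne_zero _ _))]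

theorem scaleGL_mul_smul (a b : ℕ) [NeZero a] [NeZero b] (z : ℍ) :
    scaleGL a • (scaleGL b • z) = scaleGL (a * b) • z := by
  apply UpperHalfPlane.ext
  simp only [coe_scaleGL_smul, Nat.cast_mul, mul_assoc]

theorem norm_denom_decomp {s A D : ℕ} [NeZero s] [NeZero A] [NeZero D] {B : ℤ}
    (hAD : A * D = s) {g γ : SL(2, ℤ)} {τ : ℍ}
    (h : scaleGL s • (g • τ) = γ • (upperGL A B D • τ)) :
    ‖UpperHalfPlane.denom (γ : GL (Fin 2) ℝ) (upperGL A B D • τ : ℍ)‖ =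
      ‖UpperHalfPlane.denom (g : GL (Fin 2) ℝ) τ‖ / D := by
  have h1 := congrArg UpperHalfPlane.im h
  rw [← UpperHalfPlane.coe_im, coe_scaleGL_smul] at h1
  simp only [Complex.mul_im, Complex.natCast_re, Complex.natCast_im, zero_mul, add_zero,
    UpperHalfPlane.coe_im, ModularGroup.im_smul_eq_div_normSq, im_upperGL_smul,
    Complex.normSq_eq_norm_sq] at h1
  have hg : 0 < ‖UpperHalfPlane.denom (g : GL (Fin 2) ℝ) τ‖ :=
    norm_pos_iff.mpr (UpperHalfPlane.denom_ne_zero _ _)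
  have hγ : 0 < ‖UpperHalfPlane.denom (γ : GL (Fin 2) ℝ) (upperGL A B D • τ : ℍ)‖ :=
    norm_pos_iff.mpr (UpperHalfPlane.denom_ne_zero _ _)
  have hD : (0 : ℝ) < D := by exact_mod_cast Nat.pos_of_ne_zero (NeZero.ne D)
  have hA : (0 : ℝ) < A := by exact_mod_cast Nat.pos_of_ne_zero (NeZero.ne A)
  have hτ := τ.im_pos
  rw [← hAD, Nat.cast_mul] at h1
  field_simp at h1
  rw [eq_div_iff hD.ne', ← pow_left_inj₀ (mul_nonneg hγ.le hD.le) hg.le two_ne_zero]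
  nlinarith [h1]

/-- `1 / f₄(s z)` has moderate growth at every cusp. -/
theorem exists_bounded_inv_f4 (s h : ℕ) [NeZero s] [NeZero h] (hs : 4 * s ∣ h) (g : SL(2, ℤ)) :
    ∃ m : ℕ, IsBoundedAtImInfty fun τ =>
      UpperHalfPlane.denom (g : GL (Fin 2) ℝ) τ ^ (2 : ℤ) * (f4 (scaleGL s • (g • τ)))⁻¹ *
        qp h τ ^ m := by
  obtain ⟨γ₂, A₂, B₂, D₂, _, _, hAD₂, -, h₂⟩ := X0Analytic.exists_decomp (2 * s) g
  obtain ⟨γ₄, A₄, B₄, D₄, _, _, hAD₄, -, h₄⟩ := X0Analytic.exists_decomp (4 * s) g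
  obtain ⟨u, hu⟩ := (Dvd.intro_left A₄ hAD₄).trans hs
  set m := A₄ * u
  have hqp : ∀ τ : ℍ, ‖qp 1 (upperGL A₄ B₄ D₄ • τ)‖ = ‖qp h τ‖ ^ m := fun τ => by
    rw [X0Analytic.qp_one_upperGL A₄ B₄ D₄ h m (by rw [hu]; ring), norm_mul, norm_pow,
      Complex.norm_exp]
    simp [Complex.div_natCast_re, Complex.mul_re]
  set H : ℍ → ℂ := fun τ => ((D₄ : ℂ) ^ 24 / (D₂ : ℂ) ^ 12) * (Δ (upperGL A₂ B₂ D₂ • τ) *
    (qp h τ ^ (4 * m) * ((etaQ (upperGL A₄ B₄ D₄ • τ))⁻¹) ^ 48)) with hH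
  have hbd : IsBoundedAtImInfty H := by
    have hΔ : IsBoundedAtImInfty (Δ : ℍ → ℂ) := by
      rw [X0Analytic.discriminant_eq]
      exact Filter.BoundedAtFilter.mul (X0Analytic.qp_isBounded 1)
        ((X0Analytic.tendsto_etaQ.pow 24).isBigO_one ℝ)
    refine Filter.BoundedAtFilter.mul (Filter.const_boundedAtFilter _ _)
      (Filter.BoundedAtFilter.mul ?_ (Filter.BoundedAtFilter.mul (X0Analytic.qp_pow_isBounded h _)
        ?_))
    · exact hΔ.comp_tendsto (tendsto_upperGL_atImInfty A₂ B₂ D₂)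
    · exact (((X0Analytic.tendsto_etaQ.comp (tendsto_upperGL_atImInfty A₄ B₄ D₄)).inv₀
        one_ne_zero).pow 48).isBigO_one ℝ
  refine ⟨m, ?_⟩
  obtain ⟨C, R, hC⟩ := UpperHalfPlane.isBoundedAtImInfty_iff.mp hbd
  refine UpperHalfPlane.isBoundedAtImInfty_iff.mpr ⟨max C 1, R, fun τ hτ => ?_⟩
  set w₄ := upperGL A₄ B₄ D₄ • τ
  set w₂ := upperGL A₂ B₂ D₂ • τ
  set F := UpperHalfPlane.denom (g : GL (Fin 2) ℝ) τ ^ (2 : ℤ) *
    (f4 (scaleGL s • (g • τ)))⁻¹ * qp h τ ^ m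
  have key : ‖F‖ ^ 6 = ‖H τ‖ := by
    have h6 := congrArg norm (f4_pow_six (scaleGL s • (g • τ)))
    rw [scaleGL_mul_smul, scaleGL_mul_smul, h₂, h₄, X0Analytic.discriminant_smul,
      X0Analytic.discriminant_smul] at h6
    simp only [norm_mul, norm_pow, norm_zpow] at h6
    rw [norm_denom_decomp hAD₂ (h₂ τ), norm_denom_decomp hAD₄ (h₄ τ)] at h6
    have hΔ4 : ‖Δ w₄‖ = ‖qp h τ‖ ^ m * ‖etaQ w₄‖ ^ 24 := by
      rw [X0Analytic.discriminant_eq, Pi.mul_apply, Pi.pow_apply, norm_mul, norm_pow, hqp]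
    rw [hΔ4] at h6
    simp only [F, hH, norm_mul, norm_pow, norm_zpow, norm_inv, norm_div, Complex.norm_natCast]
    have hj : ‖UpperHalfPlane.denom (g : GL (Fin 2) ℝ) τ‖ ≠ 0 :=
      norm_ne_zero_iff.mpr (UpperHalfPlane.denom_ne_zero _ _)
    have hf : ‖f4 (scaleGL s • (g • τ))‖ ≠ 0 := norm_ne_zero_iff.mpr (f4_ne_zero _)
    have he : ‖etaQ w₄‖ ≠ 0 := norm_ne_zero_iff.mpr (etaQ_ne_zero _)
    have hD₂ : (D₂ : ℝ) ≠ 0 := Nat.cast_ne_zero.mpr (NeZero.ne D₂)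
    have hD₄ : (D₄ : ℝ) ≠ 0 := Nat.cast_ne_zero.mpr (NeZero.ne D₄)
    have aux : ∀ {j f E x e a b : ℝ}, f ≠ 0 → e ≠ 0 → j ≠ 0 → a ≠ 0 → b ≠ 0 →
        f ^ 6 * ((j / a) ^ (12 : ℤ) * E) = ((j / b) ^ (12 : ℤ) * (x ^ m * e ^ 24)) ^ 2 →
        (j ^ (2 : ℤ) * f⁻¹ * x ^ m) ^ 6 = b ^ 24 / a ^ 12 * (E * (x ^ (4 * m) * e⁻¹ ^ 48)) := by
      intro j f E x e a b hf he hj ha hb h
      simp only [zpow_ofNat, div_pow, mul_pow, inv_pow, mul_comm 4 m, pow_mul] at h ⊢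
      generalize x ^ m = X at h ⊢
      field_simp at h ⊢
      linear_combination (-X ^ 4) * h
    exact aux hf he hj hD₂ hD₄ h6
  rcases le_total ‖F‖ 1 with hF | hF
  · exact hF.trans (le_max_right _ _)
  · exact ((le_self_pow₀ hF (by norm_num)).trans (key.le.trans (hC τ hτ))).trans (le_max_left _ _)

end Fermat.Agent.XHLite
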