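/-
The weight `k` numerators attached to an even nontrivial character `χ` modulo a prime `q`,
at `∞` and at `0`, with their transformation rules and expansions.
-/
import Fermat.Agent.XHLite.Analytic.Eisenstein
import Mathlib.NumberTheory.GaussSum
import Mathlib.Analysis.SpecialFunctions.Complex.CircleAddChar
import Mathlib.NumberTheory.MulChar.Lemmas

set_option autoImplicit false

noncomputable section

open UpperHalfPlane EisensteinSeries CongruenceSubgroup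
open scoped MatrixGroups Manifold

namespace Fermat.Agent.XHLite

variable {q : ℕ} [Fact q.Prime]

/-- A character as a function on the integers. -/
def charFun {R : Type*} [CommRing R] (χ : MulChar (ZMod q) R) (u : ℤ) : R := χ (u : ZMod q)

/-- The twisted divisor sum at `∞`. -/
def divSumInf {R : Type*} [CommRing R] (χ : MulChar (ZMod q) R) (k n : ℕ) : R :=
  ∑ x ∈ n.divisorsAntidiagonal, χ (x.2 : ZMod q) * (x.2 : R) ^ (k - 1)

/-- The twisted divisor sum at `0`. -/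
def divSumZero {R : Type*} [CommRing R] (χ : MulChar (ZMod q) R) (k n : ℕ) : R :=
  ∑ x ∈ n.divisorsAntidiagonal, χ⁻¹ (x.1 : ZMod q) * (x.2 : R) ^ (k - 1)

/-- The coefficients of the numerator at `∞`. -/
def numInfCoeff {R : Type*} [CommRing R] (χ : MulChar (ZMod q) R) (k n : ℕ) : R :=
  divSumInf χ k n - if 2 ∣ n then divSumInf χ k (n / 2) else 0

/-- The coefficients of the numerator at `0`. -/
def numZeroCoeff {R : Type*} [CommRing R] (χ : MulChar (ZMod q) R) (k n : ℕ) : R :=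
  divSumZero χ k n - χ⁻¹ 2 * if 2 ∣ n then divSumZero χ k (n / 2) else 0

theorem inv_ringHomComp {R S : Type*} [CommRing R] [CommRing S] (χ : MulChar (ZMod q) R)
    (f : R →+* S) : (χ.ringHomComp f)⁻¹ = χ⁻¹.ringHomComp f :=
  MulChar.ext fun a => by
    rw [MulChar.inv_apply, MulChar.ringHomComp_apply, MulChar.ringHomComp_apply, MulChar.inv_apply]

theorem map_numInfCoeff {R S : Type*} [CommRing R] [CommRing S] (χ : MulChar (ZMod q) R)
    (f : R →+* S) (k n : ℕ) : f (numInfCoeff χ k n) = numInfCoeff (χ.ringHomComp f) k n := by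
  simp only [numInfCoeff, divSumInf, map_sub, apply_ite f, map_sum, map_mul, map_pow, map_natCast,
    map_zero, MulChar.ringHomComp_apply]

theorem map_numZeroCoeff {R S : Type*} [CommRing R] [CommRing S] (χ : MulChar (ZMod q) R)
    (f : R →+* S) (k n : ℕ) : f (numZeroCoeff χ k n) = numZeroCoeff (χ.ringHomComp f) k n := by
  simp only [numZeroCoeff, divSumZero, map_sub, map_mul, apply_ite f, map_sum, map_pow, map_natCast,
    map_zero, inv_ringHomComp, MulChar.ringHomComp_apply]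

theorem numInfCoeff_one {R : Type*} [CommRing R] (χ : MulChar (ZMod q) R) (k : ℕ) :
    numInfCoeff χ k 1 = 1 := by
  simp [numInfCoeff, divSumInf]

theorem numZeroCoeff_one {R : Type*} [CommRing R] (χ : MulChar (ZMod q) R) (k : ℕ) :
    numZeroCoeff χ k 1 = 1 := by
  simp [numZeroCoeff, divSumZero]

variable {χ : MulChar (ZMod q) ℂ}

theorem norm_charFun_le (χ : MulChar (ZMod q) ℂ) (u : ℤ) : ‖charFun χ u‖ ≤ 1 :=
  DirichletCharacter.norm_le_one χ _

theorem charFun_neg {R : Type*} [CommRing R] {χ : MulChar (ZMod q) R} (hev : χ (-1) = 1) (u : ℤ) :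
    charFun χ (-u) = charFun χ u := by
  rw [charFun, Int.cast_neg, ← neg_one_mul, map_mul, hev, one_mul, charFun]

theorem inv_even {R : Type*} [CommRing R] {χ : MulChar (ZMod q) R} (hev : χ (-1) = 1) :
    χ⁻¹ (-1) = 1 := by
  rw [MulChar.inv_apply', inv_neg_one, hev]

theorem charFun_periodic {R : Type*} [CommRing R] (χ : MulChar (ZMod q) R) (u : ℤ) :
    charFun χ (u + q) = charFun χ u := by
  rw [charFun, Int.cast_add, Int.cast_natCast, ZMod.natCast_self, add_zero, charFun]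

/-- The Gauss sum of `χ⁻¹` for `r ↦ exp (2πir/q)`. -/
def gaussInv (χ : MulChar (ZMod q) ℂ) : ℂ := gaussSum χ⁻¹ ZMod.stdAddChar

theorem gaussInv_ne_zero (hχ : χ ≠ 1) : gaussInv χ ≠ 0 := by
  intro h
  have := gaussSum_mul_gaussSum_eq_card (inv_ne_one.mpr hχ) (ZMod.isPrimitive_stdAddChar q)
  rw [show gaussSum χ⁻¹ ZMod.stdAddChar = 0 from h, zero_mul] at this
  simp [eq_comm, NeZero.ne q] at this

theorem fourier_charFun (hχ : χ ≠ 1) (m : ℕ) :
    fourier q (charFun χ⁻¹) m = χ (m : ZMod q) * gaussInv χ := by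
  have h : fourier q (charFun χ⁻¹) m =
      ∑ r : ZMod q, χ⁻¹ r * ZMod.stdAddChar ((m : ZMod q) * r) := by
    refine Fintype.sum_equiv (ZMod.finEquiv q).toEquiv _ _ fun r => ?_
    have hr : (ZMod.finEquiv q).toEquiv r = (((r : ℕ) : ℤ) : ZMod q) := by
      obtain ⟨n, hn⟩ := Nat.exists_eq_succ_of_ne_zero (NeZero.ne q)
      subst hn
      exact (Fin.cast_val_eq_self r).symm.trans (by rw [Int.cast_natCast]; rfl)
    rw [hr, charFun, show (m : ZMod q) * (((r : ℕ) : ℤ) : ZMod q) = (((r : ℕ) * m : ℤ) : ZMod q) by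
      push_cast; ring, ZMod.stdAddChar_coe]
    congr 2
    push_cast
    ring
  rw [h]
  by_cases hm : (m : ZMod q) = 0
  · rw [hm, MulChar.map_zero, zero_mul]
    simp only [zero_mul, AddChar.map_zero_eq_one, mul_one]
    exact MulChar.sum_eq_zero_of_ne_one (inv_ne_one.mpr hχ)
  · have := gaussSum_mulShift χ⁻¹ ZMod.stdAddChar (Units.mk0 _ hm)
    simp only [Units.val_mk0, gaussSum, AddChar.mulShift_apply] at this
    rw [gaussInv, gaussSum, ← this, ← mul_assoc, ← MulChar.mul_apply, mul_inv_cancel,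
      MulChar.one_apply (isUnit_iff_ne_zero.mpr hm), one_mul]

/-- Coefficients at `∞`. -/
def coeffInf (χ : MulChar (ZMod q) ℂ) (M : ℕ) : (Fin 2 → ℤ) → ℂ :=
  prodCoeff (q * M) (fun _ => 1) (charFun χ⁻¹)

/-- Coefficients at `0`. -/
def coeffZero (χ : MulChar (ZMod q) ℂ) (M : ℕ) : (Fin 2 → ℤ) → ℂ :=
  prodCoeff (1 * M) (charFun χ⁻¹) (fun _ => 1)

theorem coeffBound_coeffInf (χ : MulChar (ZMod q) ℂ) (M : ℕ) : CoeffBound (coeffInf χ M) :=
  coeffBound_prodCoeff _ (fun _ => by simp) (norm_charFun_le _)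

theorem coeffBound_coeffZero (χ : MulChar (ZMod q) ℂ) (M : ℕ) : CoeffBound (coeffZero χ M) :=
  coeffBound_prodCoeff _ (norm_charFun_le _) (fun _ => by simp)

/-- The normalised numerator at `∞`. -/
def numInf (χ : MulChar (ZMod q) ℂ) (k : ℕ) (z : ℍ) : ℂ :=
  (2 * ((q : ℂ) ^ (-(k : ℤ)) * lipConst k) * gaussInv χ)⁻¹ *
    (eisC k (coeffInf χ 1) z - eisC k (coeffInf χ 2) z)

/-- The normalised numerator at `0`. -/
def numZero (χ : MulChar (ZMod q) ℂ) (k : ℕ) (z : ℍ) : ℂ :=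
  (2 * lipConst k)⁻¹ * (eisC k (coeffZero χ 1) z - χ⁻¹ 2 * eisC k (coeffZero χ 2) z)

theorem numInf_mdiff {k : ℕ} (hk : 3 ≤ k) : MDiff (numInf χ k) :=
  mdifferentiable_const.mul
    ((eisC_mdiff hk (coeffBound_coeffInf χ 1)).sub (eisC_mdiff hk (coeffBound_coeffInf χ 2)))

theorem numZero_mdiff {k : ℕ} (hk : 3 ≤ k) : MDiff (numZero χ k) :=
  mdifferentiable_const.mul
    ((eisC_mdiff hk (coeffBound_coeffZero χ 1)).sub
      (mdifferentiable_const.mul (eisC_mdiff hk (coeffBound_coeffZero χ 2))))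

theorem hasSum_halve {f : ℕ → ℂ} {x a : ℂ} (h : HasSum (fun n => f n * (x ^ 2) ^ n) a) :
    HasSum (fun n => (if 2 ∣ n then f (n / 2) else 0) * x ^ n) a := by
  refine ((mul_right_injective₀ (two_ne_zero (α := ℕ))).hasSum_iff fun n hn => ?_).mp
    (h.congr_fun fun n => ?_)
  · rw [if_neg (fun hd => hn ⟨n / 2, Nat.mul_div_cancel' hd⟩), zero_mul]
  · simp [pow_mul]

theorem sigmaTwist_inf (hχ : χ ≠ 1) (k n : ℕ) :
    sigmaTwist k (fun _ => 1) (fourier q (charFun χ⁻¹)) n = gaussInv χ * divSumInf χ k n := by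
  rw [sigmaTwist, divSumInf, Finset.mul_sum]
  exact Finset.sum_congr rfl fun x _ => by rw [fourier_charFun hχ]; ring

theorem sigmaTwist_zero (χ : MulChar (ZMod q) ℂ) (k n : ℕ) :
    sigmaTwist k (charFun χ⁻¹) (fourier 1 (fun _ => 1)) n = divSumZero χ k n := by
  rw [sigmaTwist, divSumZero]
  refine Finset.sum_congr rfl fun x _ => ?_
  simp [fourier, charFun]

/-- The expansion of the numerator at `∞`. -/
theorem hasSum_numInf (hχ : χ ≠ 1) (hev : χ (-1) = 1) {k : ℕ} (hk : 3 ≤ k) (hk2 : Even k) (z : ℍ) :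
    HasSum (fun n => numInfCoeff χ k n • X0Analytic.qp 1 z ^ n) (numInf χ k z) := by
  set K := 2 * ((q : ℂ) ^ (-(k : ℤ)) * lipConst k) with hKdef
  set g := gaussInv χ with hg
  have hK : K * g ≠ 0 :=
    mul_ne_zero (mul_ne_zero two_ne_zero (mul_ne_zero (zpow_ne_zero _
      (Nat.cast_ne_zero.mpr (NeZero.ne q))) (lipConst_ne_zero k))) (gaussInv_ne_zero hχ)
  have h : ∀ M : ℕ, [NeZero M] →
      HasSum (fun n => divSumInf χ k n * (X0Analytic.qp 1 z ^ M) ^ n)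
        ((K * g)⁻¹ * (eisC k (coeffInf χ M) z -
          ∑' v : ℤ, charFun χ⁻¹ v * ((v : ℂ) ^ k)⁻¹)) := fun M _ => by
    have h := hasSum_eisC_prodCoeff hk hk2 (P := q) M (α := fun _ => 1) (β := charFun χ⁻¹)
      (fun _ => by simp) (fun _ => rfl) (norm_charFun_le _) (charFun_neg (inv_even hev))
      (charFun_periodic _) z
    simp only [sigmaTwist_inf hχ, one_mul] at h
    rw [← hKdef, ← hg] at h
    refine (h.mul_left (K * g)⁻¹).congr_fun fun n => ?_
    rw [show K * (g * divSumInf χ k n) * (X0Analytic.qp 1 z ^ M) ^ n =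
      K * g * (divSumInf χ k n * (X0Analytic.qp 1 z ^ M) ^ n) by ring, inv_mul_cancel_left₀ hK]
  have h1 := h 1
  have h2 := h 2
  rw [pow_one] at h1
  have h3 := h1.sub (hasSum_halve h2)
  rw [← mul_sub, sub_sub_sub_cancel_right] at h3
  exact h3.congr_fun fun n => by rw [numInfCoeff, smul_eq_mul, sub_mul]

/-- The expansion of the numerator at `0`. -/
theorem hasSum_numZero (hev : χ (-1) = 1) {k : ℕ} (hk : 3 ≤ k) (hk2 : Even k) (z : ℍ) :
    HasSum (fun n => numZeroCoeff χ k n • X0Analytic.qp 1 z ^ n) (numZero χ k z) := by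
  have hK : 2 * lipConst k ≠ 0 := mul_ne_zero two_ne_zero (lipConst_ne_zero k)
  have h : ∀ M : ℕ, [NeZero M] →
      HasSum (fun n => divSumZero χ k n * (X0Analytic.qp 1 z ^ M) ^ n)
        ((2 * lipConst k)⁻¹ * eisC k (coeffZero χ M) z) := fun M _ => by
    have h := hasSum_eisC_prodCoeff hk hk2 (P := 1) M (α := charFun χ⁻¹) (β := fun _ => 1)
      (norm_charFun_le _) (charFun_neg (inv_even hev)) (fun _ => by simp) (fun _ => rfl)
      (fun _ => rfl) z
    simp only [sigmaTwist_zero] at h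
    rw [show charFun χ⁻¹ 0 = 0 by rw [charFun, Int.cast_zero, MulChar.map_zero], zero_mul,
      sub_zero] at h
    refine (h.mul_left (2 * lipConst k)⁻¹).congr_fun fun n => ?_
    simp only [Nat.cast_one, one_zpow, one_mul]
    field_simp [lipConst_ne_zero k]
  have h1 := h 1
  rw [pow_one] at h1
  have h3 := h1.sub ((hasSum_halve (h 2)).mul_left (χ⁻¹ 2))
  rw [mul_left_comm (χ⁻¹ 2), ← mul_sub] at h3
  exact h3.congr_fun fun n => by rw [numZeroCoeff, smul_eq_mul]; ring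

/-! ### Transformation rules -/

theorem vecMul_zero_apply (v : Fin 2 → ℤ) (γ : SL(2, ℤ)) :
    Matrix.vecMul v (γ : Matrix (Fin 2) (Fin 2) ℤ) 0 = v 0 * γ 0 0 + v 1 * γ 1 0 := by
  simp [Matrix.vecMul, dotProduct, Fin.sum_univ_two]

theorem vecMul_one_apply (v : Fin 2 → ℤ) (γ : SL(2, ℤ)) :
    Matrix.vecMul v (γ : Matrix (Fin 2) (Fin 2) ℤ) 1 = v 0 * γ 0 1 + v 1 * γ 1 1 := by
  simp [Matrix.vecMul, dotProduct, Fin.sum_univ_two]

theorem det_eq (γ : SL(2, ℤ)) : γ 0 0 * γ 1 1 - γ 0 1 * γ 1 0 = 1 := by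
  have := γ.det_coe
  rwa [Matrix.det_fin_two] at this

theorem cast_mul_eq_one {γ : SL(2, ℤ)} (h : (q : ℤ) ∣ γ 1 0) :
    ((γ 0 0 : ℤ) : ZMod q) * ((γ 1 1 : ℤ) : ZMod q) = 1 := by
  have := congrArg (Int.cast (R := ZMod q)) (det_eq γ)
  rwa [Int.cast_sub, Int.cast_mul, Int.cast_mul, (ZMod.intCast_zmod_eq_zero_iff_dvd _ q).mpr h,
    mul_zero, sub_zero, Int.cast_one] at this

theorem dvd_row_iff {M : ℕ} {γ : SL(2, ℤ)} (h : (M : ℤ) ∣ γ 1 0) (x y : ℤ) :
    (M : ℤ) ∣ x * γ 0 0 + y * γ 1 0 ↔ (M : ℤ) ∣ x := by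
  constructor
  · intro h1
    have h2 : (M : ℤ) ∣ x * γ 0 0 := by simpa using h1.sub (h.mul_left y)
    obtain ⟨t, ht⟩ := h
    have hx : x = x * γ 0 0 * γ 1 1 - M * (x * γ 0 1 * t) := by
      linear_combination -(x * γ 0 1) * ht - x * det_eq γ
    exact hx ▸ (h2.mul_right _).sub (dvd_mul_right _ _)
  · exact fun h1 => (h1.mul_right _).add (h.mul_left y)

theorem coeffInf_eigen (χ : MulChar (ZMod q) ℂ) {M : ℕ} {γ : SL(2, ℤ)}
    (h : ((q * M : ℕ) : ℤ) ∣ γ 1 0) (v : Fin 2 → ℤ) :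
    coeffInf χ M v = χ ((γ 1 1 : ℤ) : ZMod q) *
      coeffInf χ M (Matrix.vecMul v (γ : Matrix (Fin 2) (Fin 2) ℤ)) := by
  have hqc : (q : ℤ) ∣ γ 1 0 := (Int.natCast_dvd_natCast.mpr (dvd_mul_right q M)).trans h
  simp only [coeffInf, prodCoeff, vecMul_zero_apply, vecMul_one_apply, dvd_row_iff h, one_mul,
    mul_ite, mul_zero]
  split_ifs with h0
  · have hu : IsUnit ((γ 1 1 : ℤ) : ZMod q) :=
      IsUnit.of_mul_eq_one_right _ (cast_mul_eq_one hqc)
    have hv0 : ((v 0 : ℤ) : ZMod q) = 0 := (ZMod.intCast_zmod_eq_zero_iff_dvd _ q).mpr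
      ((Int.natCast_dvd_natCast.mpr (dvd_mul_right q M)).trans h0)
    simp only [charFun, Int.cast_add, Int.cast_mul, hv0, zero_mul, zero_add, map_mul]
    rw [mul_left_comm, ← MulChar.mul_apply, mul_inv_cancel, MulChar.one_apply hu, mul_one]
  · rfl

theorem coeffZero_eigen (χ : MulChar (ZMod q) ℂ) {M : ℕ} [NeZero M] {γ : SL(2, ℤ)}
    (h : ((q * M : ℕ) : ℤ) ∣ γ 1 0) (v : Fin 2 → ℤ) :
    coeffZero χ M v = χ⁻¹ ((γ 1 1 : ℤ) : ZMod q) *
      coeffZero χ M (Matrix.vecMul v (γ : Matrix (Fin 2) (Fin 2) ℤ)) := by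
  have hMc : ((1 * M : ℕ) : ℤ) ∣ γ 1 0 := by
    rw [one_mul]
    exact (Int.natCast_dvd_natCast.mpr (dvd_mul_left M q)).trans h
  simp only [coeffZero, prodCoeff, vecMul_zero_apply, dvd_row_iff hMc, mul_one, mul_ite, mul_zero]
  split_ifs with h0
  · obtain ⟨t, ht⟩ := h
    obtain ⟨u, hu⟩ := h0
    have hM : (M : ℤ) ≠ 0 := by exact_mod_cast NeZero.ne M
    have hdiv : (v 0 * γ 0 0 + v 1 * γ 1 0) / ((1 * M : ℕ) : ℤ) = u * γ 0 0 + q * (v 1 * t) := by
      rw [hu, ht, show ((1 * M : ℕ) : ℤ) * u * γ 0 0 + v 1 * (((q * M : ℕ) : ℤ) * t) =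
        ((1 * M : ℕ) : ℤ) * (u * γ 0 0 + q * (v 1 * t)) by push_cast; ring,
        Int.mul_ediv_cancel_left _ (by simpa using hM)]
    have hu' : v 0 / ((1 * M : ℕ) : ℤ) = u := by
      rw [hu, Int.mul_ediv_cancel_left _ (by simpa using hM)]
    rw [hdiv, hu', charFun, charFun]
    push_cast
    rw [ZMod.natCast_self, zero_mul, add_zero, ← map_mul, mul_comm ((γ 1 1 : ℤ) : ZMod q), mul_assoc,
      cast_mul_eq_one ((Dvd.intro (↑M * t) (by rw [ht]; push_cast; ring)) : (q : ℤ) ∣ γ 1 0),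
      mul_one]
  · rfl

/-- `χ(d)` is the multiplier at `∞`. -/
theorem numInf_smul {k : ℕ} {γ : SL(2, ℤ)} (h : ((q * 2 : ℕ) : ℤ) ∣ γ 1 0) (z : ℍ) :
    numInf χ k (γ • z) = χ ((γ 1 1 : ℤ) : ZMod q) *
      UpperHalfPlane.denom (γ : GL (Fin 2) ℝ) z ^ (k : ℤ) * numInf χ k z := by
  have h1 : ((q * 1 : ℕ) : ℤ) ∣ γ 1 0 :=
    (Int.natCast_dvd_natCast.mpr (mul_dvd_mul_left q (one_dvd 2))).trans h
  rw [numInf, numInf, eisC_smul_of_eigen k γ (coeffInf_eigen χ h1),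
    eisC_smul_of_eigen k γ (coeffInf_eigen χ h)]
  ring

/-- `χ⁻¹(d)` is the multiplier at `0`. -/
theorem numZero_smul {k : ℕ} {γ : SL(2, ℤ)} (h : ((q * 2 : ℕ) : ℤ) ∣ γ 1 0) (z : ℍ) :
    numZero χ k (γ • z) = χ⁻¹ ((γ 1 1 : ℤ) : ZMod q) *
      UpperHalfPlane.denom (γ : GL (Fin 2) ℝ) z ^ (k : ℤ) * numZero χ k z := by
  have h1 : ((q * 1 : ℕ) : ℤ) ∣ γ 1 0 :=
    (Int.natCast_dvd_natCast.mpr (mul_dvd_mul_left q (one_dvd 2))).trans h
  rw [numZero, numZero, eisC_smul_of_eigen k γ (coeffZero_eigen χ h1),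
    eisC_smul_of_eigen k γ (coeffZero_eigen χ h)]
  ring

end Fermat.Agent.XHLite
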