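/-
The functions `yInf = numInf / f₄ ^ m` and `yZero = numZero / f₄(q z) ^ m` of weight zero,
their multipliers, growth at the cusps, and their relation under `w_q`.
-/
import Fermat.Agent.XHLite.Analytic.Numerators
import Fermat.Agent.XHLite.Analytic.Growth
import Fermat.Agent.XHLite.Twist.Defs
import Fermat.Agent.J0Torsion.Twist

set_option autoImplicit false

noncomputable section

open UpperHalfPlane EisensteinSeries CongruenceSubgroup
open scoped MatrixGroups Manifold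

namespace Fermat.Agent.XHLite

open X0Analytic (qp scaleGL coe_scaleGL_smul det_pos_scaleGL)

variable {q : ℕ} [Fact q.Prime]

/-- A character on units. -/
def unitHom (χ : MulChar (ZMod q) ℂ) : (ZMod q)ˣ →* ℂ :=
  χ.toMonoidHom.comp (Units.coeHom (ZMod q))

theorem unitHom_dMod (χ : MulChar (ZMod q) ℂ) {N : ℕ} (γ : Gamma0 (N * q)) :
    (unitHom χ).comp (dMod N q) γ = χ (((γ : SL(2, ℤ)) 1 1 : ℤ) : ZMod q) := by
  rw [← coe_dMod]
  rfl

/-- `numInf / f₄ ^ m`. -/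
def yInf (χ : MulChar (ZMod q) ℂ) (m : ℕ) (z : ℍ) : ℂ := numInf χ (2 * m) z * (f4 z)⁻¹ ^ m

/-- `numZero / f₄(q z) ^ m`. -/
def yZero (χ : MulChar (ZMod q) ℂ) (m : ℕ) (z : ℍ) : ℂ :=
  numZero χ (2 * m) z * (f4 (scaleGL q • z))⁻¹ ^ m

theorem inv_f4_scale_mdiff (s : ℕ) [NeZero s] : MDiff fun z : ℍ => (f4 (scaleGL s • z))⁻¹ := by
  have h : MDiff fun z : ℍ => f4 (scaleGL s • z) :=
    f4_mdiff.comp (mdifferentiable_smul (det_pos_scaleGL s))
  rw [UpperHalfPlane.mdifferentiable_iff] at h ⊢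
  exact h.fun_inv fun z _ => f4_ne_zero _

theorem inv_f4_mdiff : MDiff fun z : ℍ => (f4 z)⁻¹ := by
  simpa [X0Analytic.scaleGL_one_smul] using inv_f4_scale_mdiff 1

variable {χ : MulChar (ZMod q) ℂ} {m : ℕ}

theorem yInf_mdiff (hm : 2 ≤ m) : MDiff (yInf χ m) := by
  have h := inv_f4_mdiff
  exact (numInf_mdiff (by omega)).mul ((X0Analytic.mem_holFun).mp
    (pow_mem (X0Analytic.mem_holFun.mpr h) m))

theorem yZero_mdiff (hm : 2 ≤ m) : MDiff (yZero χ m) := by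
  have h := inv_f4_scale_mdiff q
  exact (numZero_mdiff (by omega)).mul ((X0Analytic.mem_holFun).mp
    (pow_mem (X0Analytic.mem_holFun.mpr h) m))

/-- A weight `2 m` numerator over `f₄(s z) ^ m` is meromorphic at every cusp. -/
theorem exists_bounded_div_f4 {F : ℍ → ℂ} (s h : ℕ) [NeZero s] [NeZero h] (hs : 4 * s ∣ h)
    (g : SL(2, ℤ))
    (hF : IsBoundedAtImInfty fun τ =>
      (UpperHalfPlane.denom (g : GL (Fin 2) ℝ) τ ^ ((2 * m : ℕ) : ℤ))⁻¹ * F (g • τ)) :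
    ∃ M : ℕ, IsBoundedAtImInfty
      ((fun τ : ℍ => F (g • τ) * (f4 (scaleGL s • (g • τ)))⁻¹ ^ m) * qp h ^ M) := by
  obtain ⟨M, hM⟩ := exists_bounded_inv_f4 s h hs g
  refine ⟨M * m, ?_⟩
  have hP : IsBoundedAtImInfty ((fun τ : ℍ => UpperHalfPlane.denom (g : GL (Fin 2) ℝ) τ ^ (2 : ℤ) *
      (f4 (scaleGL s • (g • τ)))⁻¹ * qp h τ ^ M) ^ m) :=
    pow_mem (S := boundedAtImInftySubalgebra ℂ) hM m
  refine (Filter.BoundedAtFilter.mul hF hP).congr_left fun τ => ?_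
  simp only [Pi.mul_apply, Pi.pow_apply, mul_pow, ← pow_mul, zpow_natCast, zpow_ofNat]
  have := pow_ne_zero (2 * m) (UpperHalfPlane.denom_ne_zero (g : GL (Fin 2) ℝ) τ)
  field_simp

theorem isBounded_numInf_smul (hm : 2 ≤ m) (g : SL(2, ℤ)) :
    IsBoundedAtImInfty fun τ =>
      (UpperHalfPlane.denom (g : GL (Fin 2) ℝ) τ ^ ((2 * m : ℕ) : ℤ))⁻¹ *
        numInf χ (2 * m) (g • τ) := by
  have h1 := isBounded_eisC_smul (k := 2 * m) (by omega) (coeffBound_coeffInf χ 1) g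
  have h2 := isBounded_eisC_smul (k := 2 * m) (by omega) (coeffBound_coeffInf χ 2) g
  refine (Filter.BoundedAtFilter.mul (Filter.const_boundedAtFilter UpperHalfPlane.atImInfty
    (2 * ((q : ℂ) ^ (-((2 * m : ℕ) : ℤ)) * lipConst (2 * m)) * gaussInv χ)⁻¹)
    ((h1.sub h2 : IsBoundedAtImInfty _))).congr_left fun τ => ?_
  simp only [numInf, Pi.mul_apply, Function.const_apply]
  ring

theorem isBounded_numZero_smul (hm : 2 ≤ m) (g : SL(2, ℤ)) :
    IsBoundedAtImInfty fun τ =>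
      (UpperHalfPlane.denom (g : GL (Fin 2) ℝ) τ ^ ((2 * m : ℕ) : ℤ))⁻¹ *
        numZero χ (2 * m) (g • τ) := by
  have h1 := isBounded_eisC_smul (k := 2 * m) (by omega) (coeffBound_coeffZero χ 1) g
  have h2 := Filter.BoundedAtFilter.mul
    (Filter.const_boundedAtFilter UpperHalfPlane.atImInfty (χ⁻¹ (2 : ZMod q)))
    (isBounded_eisC_smul (k := 2 * m) (by omega) (coeffBound_coeffZero χ 2) g)
  refine (Filter.BoundedAtFilter.mul (Filter.const_boundedAtFilter UpperHalfPlane.atImInfty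
    (2 * lipConst (2 * m))⁻¹) ((h1.sub h2 : IsBoundedAtImInfty _))).congr_left fun τ => ?_
  simp only [numZero, Pi.mul_apply, Function.const_apply]
  ring

variable {N : ℕ} [NeZero N]

omit [Fact q.Prime] [NeZero N] in
theorem level_dvd_of_mem {γ : SL(2, ℤ)} (hγ : γ ∈ Gamma0 (N * q)) (hN : 4 ∣ N) :
    ((q * 2 : ℕ) : ℤ) ∣ γ 1 0 ∧ ((4 * q : ℕ) : ℤ) ∣ γ 1 0 ∧ (4 : ℤ) ∣ γ 1 0 := by
  have h := (HeckeJ0.mem_Gamma0_iff_dvd _).mp hγ
  refine ⟨(Int.natCast_dvd_natCast.mpr ?_).trans h, (Int.natCast_dvd_natCast.mpr ?_).trans h,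
    (show ((4 : ℕ) : ℤ) ∣ _ from (Int.natCast_dvd_natCast.mpr (hN.mul_right q)).trans h)⟩
  · rw [mul_comm q 2]
    exact mul_dvd_mul_right ((show 2 ∣ 4 by norm_num).trans hN) q
  · exact mul_dvd_mul_right hN q

/-- `yInf` has multiplier `χ(d)` on `Γ₀(N q)`. -/
theorem yInf_mem_twFun (hm : 2 ≤ m) (hN : 4 ∣ N) :
    yInf χ m ∈ J0Torsion.twFun ((unitHom χ).comp (dMod N q)) := by
  refine ⟨yInf_mdiff hm, fun γ τ => ?_, fun g => ?_⟩
  · obtain ⟨h1, -, h4⟩ := level_dvd_of_mem γ.2 hN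
    rw [yInf, yInf, numInf_smul h1, f4Inv_of_mem h4, unitHom_dMod]
    simp only [mul_inv, mul_pow, inv_pow, zpow_natCast, zpow_ofNat, ← pow_mul]
    have := pow_ne_zero (2 * m)
      (UpperHalfPlane.denom_ne_zero ((γ : SL(2, ℤ)) : GL (Fin 2) ℝ) τ)
    field_simp
  · obtain ⟨M, hM⟩ := exists_bounded_div_f4 1 (N * q) (by simpa using hN.mul_right q) g
      (isBounded_numInf_smul (χ := χ) hm g)
    simp only [X0Analytic.scaleGL_one_smul] at hM
    exact ⟨M, hM⟩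

/-- `yZero` has multiplier `χ⁻¹(d)` on `Γ₀(N q)`. -/
theorem yZero_mem_twFun (hm : 2 ≤ m) (hN : 4 ∣ N) :
    yZero χ m ∈ J0Torsion.twFun ((unitHom χ⁻¹).comp (dMod N q)) := by
  refine ⟨yZero_mdiff hm, fun γ τ => ?_, fun g => ?_⟩
  · obtain ⟨h1, h4, -⟩ := level_dvd_of_mem γ.2 hN
    rw [yZero, yZero, numZero_smul h1, f4_scale_smul q h4, unitHom_dMod]
    simp only [mul_inv, mul_pow, inv_pow, zpow_natCast, zpow_ofNat, ← pow_mul]
    have := pow_ne_zero (2 * m)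
      (UpperHalfPlane.denom_ne_zero ((γ : SL(2, ℤ)) : GL (Fin 2) ℝ) τ)
    field_simp
  · exact exists_bounded_div_f4 q (N * q) (mul_dvd_mul_right hN q) g
      (isBounded_numZero_smul (χ := χ) hm g)

/-! ### Passage to the cusp `0` -/

theorem coeffInf_vecMul_inv (hev : χ (-1) = 1) {M : ℕ} [NeZero M] {γ : SL(2, ℤ)}
    (he : (q : ℤ) ∣ γ 1 1) (hc : (M : ℤ) ∣ γ 1 0) (v : Fin 2 → ℤ) :
    coeffInf χ M (Matrix.vecMul v ((γ⁻¹ : SL(2, ℤ)) : Matrix (Fin 2) (Fin 2) ℤ)) =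
      if (q : ℤ) ∣ v 1 then
        χ⁻¹ ((γ 0 1 : ℤ) : ZMod q) * χ⁻¹ (M : ZMod q) * coeffZero χ M ![v 0, v 1 / q]
      else 0 := by
  obtain ⟨E, hE⟩ := he
  obtain ⟨C, hC⟩ := hc
  have hdet := det_eq γ
  have h0 : Matrix.vecMul v ((γ⁻¹ : SL(2, ℤ)) : Matrix (Fin 2) (Fin 2) ℤ) 0 =
      v 0 * γ 1 1 - v 1 * γ 1 0 := by
    simp [Matrix.SpecialLinearGroup.coe_inv, Matrix.adjugate_fin_two, Matrix.vecMul, dotProduct,
      Fin.sum_univ_two]
    ring
  have h1 : Matrix.vecMul v ((γ⁻¹ : SL(2, ℤ)) : Matrix (Fin 2) (Fin 2) ℤ) 1 =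
      -(v 0 * γ 0 1) + v 1 * γ 0 0 := by
    simp [Matrix.SpecialLinearGroup.coe_inv, Matrix.adjugate_fin_two, Matrix.vecMul, dotProduct,
      Fin.sum_univ_two]
  have hiff : ((q * M : ℕ) : ℤ) ∣ v 0 * γ 1 1 - v 1 * γ 1 0 ↔
      (q : ℤ) ∣ v 1 ∧ (M : ℤ) ∣ v 0 := by
    constructor
    · rintro ⟨t, ht⟩
      push_cast at ht
      refine ⟨?_, ?_⟩
      · have : (v 1 : ℤ) = (q : ℤ) * (v 1 * γ 0 0 * E - γ 0 1 * v 0 * E + γ 0 1 * M * t) := by
          linear_combination (γ 0 1) * ht + (v 1 * γ 0 0 - γ 0 1 * v 0) * hE - v 1 * hdet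
        exact ⟨_, this⟩
      · have : (v 0 : ℤ) = (M : ℤ) * (γ 0 0 * q * t + γ 0 0 * v 1 * C - v 0 * γ 0 1 * C) := by
          linear_combination (γ 0 0) * ht + (γ 0 0 * v 1 - v 0 * γ 0 1) * hC - v 0 * hdet
        exact ⟨_, this⟩
    · rintro ⟨⟨a, ha⟩, b, hb⟩
      exact ⟨b * E - a * C, by rw [ha, hb, hE, hC]; push_cast; ring⟩
  have hqz : ((q : ℤ) : ZMod q) = 0 := by simp
  simp only [coeffInf, coeffZero, prodCoeff, h0, h1, hiff, Matrix.cons_val_zero, one_mul, mul_one]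
  by_cases hq1 : (q : ℤ) ∣ v 1
  · by_cases hM0 : (M : ℤ) ∣ v 0
    · rw [if_pos ⟨hq1, hM0⟩, if_pos hq1, if_pos hM0]
      obtain ⟨u, hu⟩ := hM0
      obtain ⟨t, ht⟩ := hq1
      rw [hu, Int.mul_ediv_cancel_left _ (by exact_mod_cast NeZero.ne M), charFun, charFun, ht]
      push_cast
      simp only [ZMod.natCast_self, zero_mul, add_zero]
      rw [← neg_one_mul, map_mul, inv_even hev, one_mul, map_mul, map_mul]
      ring
    · rw [if_neg fun h => hM0 h.2, if_pos hq1, if_neg hM0, mul_zero]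
  · rw [if_neg fun h => hq1 h.1, if_neg hq1]

/-- Eisenstein series at `∞` moved to the cusp `0`. -/
theorem eisC_inf_at_zero (hev : χ (-1) = 1) {M : ℕ} [NeZero M] (k : ℕ)
    {γ : SL(2, ℤ)} (he : (q : ℤ) ∣ γ 1 1) (hc : (M : ℤ) ∣ γ 1 0) (z : ℍ) :
    eisC k (coeffInf χ M) (γ • (scaleGL q • z)) =
      UpperHalfPlane.denom (γ : GL (Fin 2) ℝ) (scaleGL q • z : ℍ) ^ (k : ℤ) *
        (χ⁻¹ ((γ 0 1 : ℤ) : ZMod q) * χ⁻¹ (M : ZMod q) * (q : ℂ) ^ (-(k : ℤ)) *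
          eisC k (coeffZero χ M) z) := by
  rw [eisC_smul]
  congr 1
  simp only [coeffInf_vecMul_inv hev he hc]
  have hq0 : (q : ℤ) ≠ 0 := by exact_mod_cast NeZero.ne q
  have hinj : Function.Injective fun v : Fin 2 → ℤ => (![v 0, q * v 1] : Fin 2 → ℤ) := by
    intro a b h
    have h0 := congrFun h 0
    have h1 := congrFun h 1
    funext i
    fin_cases i
    · simpa using h0
    · exact mul_left_cancel₀ hq0 (by simpa using h1)
  rw [eisC, eisC, ← tsum_mul_left, ← hinj.tsum_eq]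
  · refine tsum_congr fun v => ?_
    have hv : (![v 0, v 1] : Fin 2 → ℤ) = v := by funext i; fin_cases i <;> simp
    simp only [Matrix.cons_val_one, Matrix.cons_val_zero, Matrix.cons_val_fin_one, dvd_mul_right,
      if_true, Int.mul_ediv_cancel_left _ hq0, hv]
    rw [eisSummand, eisSummand]
    simp only [Matrix.cons_val_one, Matrix.cons_val_zero, Matrix.cons_val_fin_one, coe_scaleGL_smul]
    push_cast
    rw [show (v 0 : ℂ) * (q * z) + q * (v 1 : ℂ) = q * ((v 0 : ℂ) * z + v 1) by ring, mul_zpow]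
    ring
  · intro v hv
    by_cases h : (q : ℤ) ∣ v 1
    · obtain ⟨t, ht⟩ := h
      exact ⟨![v 0, t], by funext i; fin_cases i <;> simp [ht]⟩
    · exact absurd (by simp [h]) hv

/-- `yInf (γ (q z))` is a multiple of `yZero z` when `q ∣ γ₁₁`. -/
theorem yInf_smul_scale (hev : χ (-1) = 1) {γ : SL(2, ℤ)} (he : (q : ℤ) ∣ γ 1 1)
    (hc : (4 : ℤ) ∣ γ 1 0) (z : ℍ) :
    yInf χ m (γ • (scaleGL q • z)) =
      χ⁻¹ ((γ 0 1 : ℤ) : ZMod q) / gaussInv χ * yZero χ m z := by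
  rw [yInf, yZero, numInf, numZero, f4Inv_of_mem hc,
    eisC_inf_at_zero hev (M := 1) _ he (by simp),
    eisC_inf_at_zero hev (M := 2) _ he
      ((show ((2 : ℕ) : ℤ) ∣ 4 by norm_num).trans hc)]
  simp only [Nat.cast_one, map_one, Nat.cast_ofNat, mul_one, mul_inv, mul_pow, inv_pow, zpow_neg,
    zpow_natCast, zpow_ofNat, ← pow_mul]
  have := pow_ne_zero (2 * m)
    (UpperHalfPlane.denom_ne_zero (γ : GL (Fin 2) ℝ) (scaleGL q • z))
  have := pow_ne_zero (2 * m) (show (q : ℂ) ≠ 0 from Nat.cast_ne_zero.mpr (NeZero.ne q))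
  field_simp

end Fermat.Agent.XHLite
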